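import Mathlib

set_option autoImplicit false

namespace Fermat.Agent.S23Lib

namespace FixedField

open MvPolynomial

/-- An element fixed by all ring endomorphisms of `ℂ` lies in the field generated by
any transcendence basis. -/
theorem mem_adjoin_of_fixed {ι : Type*} {v : ι → ℂ} (hv : IsTranscendenceBasis ℚ v)
    (x : ℂ) (h : ∀ σ : ℂ →+* ℂ, σ x = x) :
    x ∈ IntermediateField.adjoin ℚ (Set.range v) := by
  have halg : Algebra.IsAlgebraic (IntermediateField.adjoin ℚ (Set.range v)) ℂ :=
    hv.isAlgebraic_field
  have hcl : IsAlgClosure (IntermediateField.adjoin ℚ (Set.range v)) ℂ :=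
    ⟨inferInstance, halg⟩
  have hgal : IsGalois (IntermediateField.adjoin ℚ (Set.range v)) ℂ := inferInstance
  have := (InfiniteGalois.mem_range_algebraMap_iff_fixed
    (k := IntermediateField.adjoin ℚ (Set.range v)) (K := ℂ) x).mpr
    (fun f => h (f : ℂ →+* ℂ))
  obtain ⟨y, hy⟩ := this
  rw [← hy]
  exact y.2

/-- An element of the field generated by a transcendence basis which is integral over the
polynomial ring is a polynomial in the basis. -/
theorem exists_aeval_eq {F E : Type*} [Field F] [Field E] [Algebra F E]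
    {ι : Type*} {v : ι → E} (hv : AlgebraicIndependent F v)
    (x : E) (hx : x ∈ IntermediateField.adjoin F (Set.range v))
    (P : Polynomial (MvPolynomial ι F)) (hP : P.Monic)
    (hPx : Polynomial.eval₂ (aeval v : MvPolynomial ι F →ₐ[F] E).toRingHom x P = 0) :
    ∃ p : MvPolynomial ι F, aeval v p = x := by
  set z := hv.aevalEquivField.symm ⟨x, hx⟩ with hz
  have hzx : (hv.aevalEquivField z : E) = x := by
    rw [hz, AlgEquiv.apply_symm_apply]
  have hint : IsIntegral (MvPolynomial ι F) z := by
    refine ⟨P, hP, ?_⟩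
    have hinj : Function.Injective
        (fun a : FractionRing (MvPolynomial ι F) => (hv.aevalEquivField a : E)) :=
      Subtype.val_injective.comp hv.aevalEquivField.injective
    apply hinj
    simp only
    let φ : FractionRing (MvPolynomial ι F) →+* E :=
      (IntermediateField.val _).toRingHom.comp hv.aevalEquivField.toAlgHom.toRingHom
    have hφ : ∀ a, φ a = (hv.aevalEquivField a : E) := fun a => rfl
    have hcomp : φ.comp (algebraMap (MvPolynomial ι F) (FractionRing (MvPolynomial ι F)))
        = (aeval v : MvPolynomial ι F →ₐ[F] E).toRingHom := by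
      refine RingHom.ext fun a => ?_
      exact hv.aevalEquivField_algebraMap_apply_coe a
    rw [← hφ, ← hφ, Polynomial.hom_eval₂, map_zero, hφ, hzx, hcomp]
    exact hPx
  obtain ⟨p, hp⟩ := IsIntegrallyClosed.isIntegral_iff.mp hint
  refine ⟨p, ?_⟩
  rw [← hzx, ← hp, hv.aevalEquivField_algebraMap_apply_coe]

end FixedField

open FixedField in
theorem exists_rat_of_forall_ringHom_fixed (x : ℂ) (h : ∀ σ : ℂ →+* ℂ, σ x = x) :
    ∃ r : ℚ, (r : ℂ) = x := by
  by_cases hx : IsAlgebraic ℚ x
  · -- algebraic case
    obtain ⟨s, hs⟩ := exists_isTranscendenceBasis ℚ ℂ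
    have hmem := mem_adjoin_of_fixed hs x h
    have hxi : IsIntegral ℚ x := hx.isIntegral
    obtain ⟨p, hp⟩ := exists_aeval_eq hs.1 x hmem
      ((minpoly ℚ x).map (algebraMap ℚ (MvPolynomial s ℚ))) ((minpoly.monic hxi).map _) (by
        rw [Polynomial.eval₂_map]
        have : ((MvPolynomial.aeval (Subtype.val : s → ℂ) :
            MvPolynomial s ℚ →ₐ[ℚ] ℂ).toRingHom.comp (algebraMap ℚ (MvPolynomial s ℚ)))
            = algebraMap ℚ ℂ := by
          ext a
          simp
        rw [this]
        exact minpoly.aeval ℚ x)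
    -- `p` is a root of the minimal polynomial
    have hroot : Polynomial.aeval p (minpoly ℚ x) = 0 := by
      have hinj : Function.Injective (MvPolynomial.aeval (Subtype.val : s → ℂ) :
          MvPolynomial s ℚ →ₐ[ℚ] ℂ) := algebraicIndependent_iff_injective_aeval.1 hs.1
      apply hinj
      rw [← Polynomial.aeval_algHom_apply, hp, minpoly.aeval, map_zero]
    have hroot' : Polynomial.aeval (MvPolynomial.constantCoeff p) (minpoly ℚ x) = 0 := by
      have := congrArg (MvPolynomial.aeval (fun _ : s => (0 : ℚ))) hroot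
      rw [← Polynomial.aeval_algHom_apply, map_zero] at this
      convert this using 2
      simp [MvPolynomial.aeval_def, MvPolynomial.constantCoeff_eq]
    have hdeg : (minpoly ℚ x).degree = 1 :=
      Polynomial.degree_eq_one_of_irreducible_of_root (minpoly.irreducible hxi)
        (by simpa [Polynomial.IsRoot, Polynomial.aeval_def] using hroot')
    obtain ⟨r, hr⟩ := minpoly.mem_range_of_degree_eq_one ℚ x hdeg
    exact ⟨r, by simpa using hr⟩
  · -- transcendental case
    exfalso
    have hx2 : Transcendental ℚ (x ^ 2) := by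
      intro hx2
      exact hx (IsAlgebraic.of_pow (by norm_num) hx2)
    have hind : AlgebraicIndepOn ℚ id ({x ^ 2} : Set ℂ) := by
      have : AlgebraicIndependent ℚ (fun i : ({x ^ 2} : Set ℂ) => (i : ℂ)) := by
        rw [algebraicIndependent_singleton_iff ⟨x ^ 2, rfl⟩]
        exact hx2
      exact this
    obtain ⟨t, hst, ht⟩ := exists_isTranscendenceBasis_superset hind
    have hmem := mem_adjoin_of_fixed ht x h
    let i0 : t := ⟨x ^ 2, hst rfl⟩
    obtain ⟨p, hp⟩ := exists_aeval_eq ht.1 x hmem
      (Polynomial.X ^ 2 - Polynomial.C (MvPolynomial.X i0)) (Polynomial.monic_X_pow_sub_C _ (by norm_num))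
      (by simp [i0])
    have hinj : Function.Injective (MvPolynomial.aeval (Subtype.val : t → ℂ) :
        MvPolynomial t ℚ →ₐ[ℚ] ℂ) := algebraicIndependent_iff_injective_aeval.1 ht.1
    have hpp : p * p = MvPolynomial.X i0 := by
      apply hinj
      rw [map_mul, hp, MvPolynomial.aeval_X]
      simp [i0, sq]
    have hirr : Irreducible (MvPolynomial.X i0 : MvPolynomial t ℚ) := MvPolynomial.X_prime.irreducible
    rcases hirr.isUnit_or_isUnit hpp.symm with hu | hu <;>
      exact hirr.not_isUnit (hpp ▸ hu.mul hu)

end Fermat.Agent.S23Lib
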