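import Mathlib
import Fermat.Agent.S23.FixedField

set_option autoImplicit false

namespace Fermat.Agent.S23Lib

namespace Descent

variable {V : Type*} [AddCommGroup V] [Module ℂ V] {n : ℕ}

/-- the support of the coordinate vector of `v`. -/
noncomputable def supp (c : V →ₗ[ℂ] (Fin n → ℂ)) (v : V) : Finset (Fin n) :=
  Finset.univ.filter (fun i => c v i ≠ 0)

theorem mem_supp (c : V →ₗ[ℂ] (Fin n → ℂ)) (v : V) (i : Fin n) :
    i ∈ supp c v ↔ c v i ≠ 0 := by
  simp [supp]

theorem rat_of_minimal (c : V →ₗ[ℂ] (Fin n → ℂ)) (hc : Function.Injective c)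
    (hσ : ∀ σ : ℂ →+* ℂ, ∀ v : V, ∃ w : V, ∀ i, c w i = σ (c v i))
    (u : V) (hmin : ∀ v : V, v ≠ 0 → supp c v ⊆ supp c u → supp c v = supp c u)
    (i0 : Fin n) (hi0 : c u i0 = 1) (i : Fin n) : ∃ r : ℚ, c u i = (r : ℂ) := by
  obtain ⟨r, hr⟩ := exists_rat_of_forall_ringHom_fixed (c u i) (by
    intro σ
    obtain ⟨w, hw⟩ := hσ σ u
    have hv : w - u = 0 := by
      by_contra hne
      have hsub : supp c (w - u) ⊆ supp c u := by
        intro j hj
        rw [mem_supp] at hj ⊢
        intro h0
        apply hj
        rw [map_sub, Pi.sub_apply, hw j, h0, map_zero, sub_zero]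
      have heq := hmin _ hne hsub
      have h1 : i0 ∈ supp c u := by
        rw [mem_supp, hi0]; exact one_ne_zero
      rw [← heq, mem_supp] at h1
      apply h1
      rw [map_sub, Pi.sub_apply, hw i0, hi0, map_one, sub_self]
    have hwu : w = u := sub_eq_zero.mp hv
    rw [← hw i, hwu])
  exact ⟨r, hr.symm⟩

end Descent

open Descent in
theorem span_rat_eq_top {V : Type*} [AddCommGroup V] [Module ℂ V] {n : ℕ}
    (c : V →ₗ[ℂ] (Fin n → ℂ)) (hc : Function.Injective c)
    (hσ : ∀ σ : ℂ →+* ℂ, ∀ v : V, ∃ w : V, ∀ i, c w i = σ (c v i)) :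
    Submodule.span ℂ {v : V | ∀ i, ∃ r : ℚ, c v i = (r : ℂ)} = ⊤ := by
  set S : Set V := {v : V | ∀ i, ∃ r : ℚ, c v i = (r : ℂ)} with hS
  have key : ∀ m : ℕ, ∀ v : V, (supp c v).card ≤ m → v ∈ Submodule.span ℂ S := by
    intro m
    induction m with
    | zero =>
      intro v hv
      have h0 : v = 0 := by
        apply hc
        rw [map_zero]
        funext i
        by_contra hne
        have : i ∈ supp c v := (mem_supp c v i).mpr hne
        have hpos : 0 < (supp c v).card := Finset.card_pos.mpr ⟨i, this⟩
        omega
      rw [h0]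
      exact Submodule.zero_mem _
    | succ m ih =>
      intro v hv
      by_cases hv0 : v = 0
      · rw [hv0]; exact Submodule.zero_mem _
      -- choose `u` nonzero with support inside that of `v`, of minimal cardinality
      classical
      let P : ℕ → Prop := fun k => ∃ u : V, u ≠ 0 ∧ supp c u ⊆ supp c v ∧ (supp c u).card = k
      have hP : ∃ k, P k := ⟨_, v, hv0, Finset.Subset.refl _, rfl⟩
      obtain ⟨u, hu0, husub, hucard⟩ := Nat.find_spec hP
      have hmin : ∀ v' : V, v' ≠ 0 → supp c v' ⊆ supp c u → supp c v' = supp c u := by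
        intro v' hv' hsub
        apply Finset.eq_of_subset_of_card_le hsub
        rw [hucard]
        exact Nat.find_min' hP ⟨v', hv', hsub.trans husub, rfl⟩
      obtain ⟨i0, hi0⟩ : ∃ i0, c u i0 ≠ 0 := by
        by_contra hall
        push Not at hall
        apply hu0
        apply hc
        rw [map_zero]
        funext i
        exact hall i
      set u' : V := (c u i0)⁻¹ • u with hu'
      have hsupp' : supp c u' = supp c u := by
        ext j
        rw [mem_supp, mem_supp, hu', map_smul, Pi.smul_apply, smul_eq_mul]
        simp [hi0]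
      have hu'1 : c u' i0 = 1 := by
        rw [hu', map_smul, Pi.smul_apply, smul_eq_mul, inv_mul_cancel₀ hi0]
      have hu'S : u' ∈ S := by
        intro i
        exact rat_of_minimal c hc hσ u' (by rw [hsupp']; exact hmin) i0 hu'1 i
      have hv' : v - (c v i0) • u' ∈ Submodule.span ℂ S := by
        apply ih
        have hsub : supp c (v - (c v i0) • u') ⊆ (supp c v).erase i0 := by
          intro j hj
          rw [mem_supp] at hj
          rw [Finset.mem_erase]
          constructor
          · rintro rfl
            apply hj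
            rw [map_sub, map_smul, Pi.sub_apply, Pi.smul_apply, hu'1, smul_eq_mul, mul_one,
              sub_self]
          · rw [mem_supp]
            intro h0
            apply hj
            have : c u' j = 0 := by
              by_contra hne
              have h1 : j ∈ supp c u' := (mem_supp c u' j).mpr hne
              rw [hsupp'] at h1
              exact (mem_supp c v j).mp (husub h1) h0
            rw [map_sub, map_smul, Pi.sub_apply, Pi.smul_apply, this, h0, smul_zero, sub_zero]
        have hi0v : i0 ∈ supp c v := husub ((mem_supp c u i0).mpr hi0)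
        have h1 := Finset.card_le_card hsub
        rw [Finset.card_erase_of_mem hi0v] at h1
        omega
      have : v = (v - (c v i0) • u') + (c v i0) • u' := by abel
      rw [this]
      exact Submodule.add_mem _ hv' (Submodule.smul_mem _ _ (Submodule.subset_span hu'S))
  rw [eq_top_iff]
  intro v _
  exact key _ v le_rfl

end Fermat.Agent.S23Lib
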