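import Mathlib

set_option autoImplicit false

/-!
# Pure algebra for S23: characteristic polynomial and Lagrange interpolation identities
for a finite family in a commutative ring.
-/

namespace Fermat.Agent.S23Lib.Alg

open Finset Polynomial

variable {A : Type*} [CommRing A] {ι : Type*} [Fintype ι]

/-- elementary symmetric functions of a finite family -/
noncomputable def es (x : ι → A) (j : ℕ) : A := ((Finset.univ : Finset ι).val.map x).esymm j

theorem es_zero (x : ι → A) : es x 0 = 1 := by
  simp [es, Multiset.esymm]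

theorem es_eq_sum (x : ι → A) (j : ℕ) :
    es x j = ∑ s ∈ (Finset.univ : Finset ι).powersetCard j, ∏ i ∈ s, x i := by
  simp [es, Finset.esymm_map_val]

/-- The characteristic polynomial. -/
theorem charpoly_eq (x : ι → A) :
    ∏ i, (X - C (x i)) = ∑ j ∈ range (Fintype.card ι + 1),
      (-1) ^ j * (C (es x j) * X ^ (Fintype.card ι - j)) := by
  have h := Multiset.prod_X_sub_X_eq_sum_esymm ((Finset.univ : Finset ι).val.map x)
  simp only [Multiset.map_map, Multiset.card_map, Finset.card_val, Finset.card_univ] at h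
  exact h

/-- (I1): every member of the family is a root of the characteristic polynomial. -/
theorem charpoly_root (x : ι → A) (i₀ : ι) :
    ∑ j ∈ range (Fintype.card ι + 1), (-1) ^ j * (es x j * x i₀ ^ (Fintype.card ι - j)) = 0 := by
  have h := congrArg (Polynomial.eval (x i₀)) (charpoly_eq x)
  rw [Polynomial.eval_prod, Finset.prod_eq_zero (Finset.mem_univ i₀) (by simp)] at h
  rw [h]
  simp [Polynomial.eval_finsetSum]

/-- (I1) in monic form. -/
theorem charpoly_root' (x : ι → A) (i₀ : ι) :
    x i₀ ^ (Fintype.card ι) + ∑ i ∈ range (Fintype.card ι),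
      ((-1) ^ (i + 1) * es x (i + 1)) * x i₀ ^ (Fintype.card ι - 1 - i) = 0 := by
  have h := charpoly_root x i₀
  rw [Finset.sum_range_succ'] at h
  simp only [pow_zero, es_zero, one_mul, Nat.sub_zero] at h
  rw [add_comm, ← h]
  congr 1
  apply Finset.sum_congr rfl
  intro i _
  rw [mul_assoc, Nat.sub_sub, add_comm 1 i]

/-- The difference-quotient polynomial. -/
noncomputable def dq (x : ι → A) (u v : A) : A :=
  ∑ j ∈ range (Fintype.card ι), (-1) ^ j * es x j *
    ∑ a ∈ range (Fintype.card ι - j), u ^ a * v ^ (Fintype.card ι - j - 1 - a)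

theorem dq_mul_sub (x : ι → A) (u v : A) :
    dq x u v * (u - v) =
      (∑ j ∈ range (Fintype.card ι + 1), (-1) ^ j * (es x j * u ^ (Fintype.card ι - j)))
      - ∑ j ∈ range (Fintype.card ι + 1), (-1) ^ j * (es x j * v ^ (Fintype.card ι - j)) := by
  rw [dq, Finset.sum_mul, Finset.sum_range_succ, Finset.sum_range_succ, Nat.sub_self]
  simp only [pow_zero]
  rw [add_sub_add_right_eq_sub, ← Finset.sum_sub_distrib]
  apply Finset.sum_congr rfl
  intro j _
  rw [mul_assoc, geom_sum₂_mul]
  ring

variable [DecidableEq ι]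

/-- `dq x X (x i) = ∏_{i' ≠ i} (X - x i')`, evaluated. -/
theorem dq_eq_prod (x : ι → A) (i : ι) (u : A) :
    dq x u (x i) = ∏ i' ∈ Finset.univ.erase i, (u - x i') := by
  -- work in the polynomial ring
  have key : (∑ j ∈ range (Fintype.card ι), C ((-1) ^ j * es x j) *
      ∑ a ∈ range (Fintype.card ι - j), X ^ a * C (x i) ^ (Fintype.card ι - j - 1 - a) : A[X])
      = ∏ i' ∈ Finset.univ.erase i, (X - C (x i')) := by
    have hmonic : (X - C (x i) : A[X]).Monic := monic_X_sub_C _
    apply hmonic.isRegular.right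
    show _ * (X - C (x i)) = _ * (X - C (x i))
    rw [Finset.prod_erase_mul _ _ (Finset.mem_univ i), charpoly_eq, Finset.sum_mul]
    have h0 := charpoly_root x i
    have h0' : (∑ j ∈ range (Fintype.card ι + 1),
        (-1) ^ j * (C (es x j) * C (x i) ^ (Fintype.card ι - j)) : A[X]) = 0 := by
      have := congrArg (C : A → A[X]) h0
      simpa [map_sum] using this
    rw [← sub_zero (∑ j ∈ range (Fintype.card ι + 1), _), ← h0',
      Finset.sum_range_succ, Finset.sum_range_succ (n := Fintype.card ι), Nat.sub_self]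
    simp only [pow_zero]
    rw [add_sub_add_right_eq_sub, ← Finset.sum_sub_distrib]
    apply Finset.sum_congr rfl
    intro j _
    rw [mul_assoc, geom_sum₂_mul]
    simp only [map_mul, map_pow, map_neg, map_one]
    ring
  have := congrArg (Polynomial.eval u) key
  simp only [Polynomial.eval_finsetSum, Polynomial.eval_mul, Polynomial.eval_C,
    Polynomial.eval_pow, Polynomial.eval_X, Polynomial.eval_prod, Polynomial.eval_sub] at this
  rw [← this, dq]

/-- (I2): Lagrange interpolation identity. -/
theorem interpolation (x y : ι → A) (i₀ : ι) :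
    (∏ i' ∈ Finset.univ.erase i₀, (x i₀ - x i')) * y i₀ =
      ∑ j ∈ range (Fintype.card ι), (-1) ^ j * es x j *
        ∑ a ∈ range (Fintype.card ι - j), x i₀ ^ a *
          ∑ i, y i * x i ^ (Fintype.card ι - j - 1 - a) := by
  have h1 : ∑ i, y i * dq x (x i₀) (x i) = (∏ i' ∈ Finset.univ.erase i₀, (x i₀ - x i')) * y i₀ := by
    rw [Finset.sum_eq_single i₀]
    · rw [dq_eq_prod, mul_comm]
    · intro i _ hi
      rw [dq_eq_prod, Finset.prod_eq_zero (i := i₀) (by simp [hi.symm]) (by simp), mul_zero]
    · intro h; exact absurd (Finset.mem_univ _) h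
  rw [← h1]
  simp only [dq, Finset.mul_sum]
  rw [Finset.sum_comm]
  apply Finset.sum_congr rfl
  intro j _
  rw [Finset.sum_comm]
  apply Finset.sum_congr rfl
  intro a _
  apply Finset.sum_congr rfl
  intro i _
  ring

/-- the "different" `∏_{i' ≠ i₀} (x i₀ - x i')` as a polynomial expression in `x i₀`. -/
theorem different_eq (x : ι → A) (i₀ : ι) :
    (∏ i' ∈ Finset.univ.erase i₀, (x i₀ - x i')) =
      ∑ j ∈ range (Fintype.card ι), (-1) ^ j * es x j *
        ∑ a ∈ range (Fintype.card ι - j), x i₀ ^ a * x i₀ ^ (Fintype.card ι - j - 1 - a) := by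
  rw [← dq_eq_prod, dq]

omit [DecidableEq ι] in
/-- Newton's identities, evaluated. -/
theorem newton (x : ι → A) (j : ℕ) :
    (j : A) * es x j = (-1) ^ (j + 1) *
      ∑ a ∈ antidiagonal j with a.1 < j, (-1) ^ a.1 * es x a.1 * ∑ i, x i ^ a.2 := by
  have h := congrArg (MvPolynomial.aeval x) (MvPolynomial.mul_esymm_eq_sum ι ℤ j)
  simp only [map_mul, map_natCast, map_pow, map_neg, map_one, map_sum,
    MvPolynomial.aeval_esymm_eq_multiset_esymm, MvPolynomial.psum, MvPolynomial.aeval_X] at h
  exact h

omit [DecidableEq ι] in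
/-- Closure: if a graded family of subspaces closed under products contains all the power sums,
it contains the elementary symmetric functions. -/
theorem es_mem [Algebra ℂ A] (K : ℤ → Submodule ℂ A)
    (hmul : ∀ (w v : ℤ) (F G : A), F ∈ K w → G ∈ K v → F * G ∈ K (w + v)) (h1 : (1 : A) ∈ K 0)
    (x : ι → A) (w : ℤ) (hp : ∀ j : ℕ, 0 < j → ∑ i, x i ^ j ∈ K (w * j)) (j : ℕ) :
    es x j ∈ K (w * j) := by
  induction j using Nat.strong_induction_on with
  | _ j ih =>
    rcases Nat.eq_zero_or_pos j with rfl | hj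
    · simpa [es_zero] using h1
    · have hN := newton x j
      have hj' : (j : ℂ) ≠ 0 := by exact_mod_cast hj.ne'
      have hes : es x j = (j : ℂ)⁻¹ • ((-1) ^ (j + 1) *
          ∑ a ∈ antidiagonal j with a.1 < j, (-1) ^ a.1 * es x a.1 * ∑ i, x i ^ a.2) := by
        rw [← hN, ← nsmul_eq_mul, ← Nat.cast_smul_eq_nsmul ℂ j,
          smul_smul, inv_mul_cancel₀ hj', one_smul]
      rw [hes]
      apply Submodule.smul_mem
      have hsign : ∀ (n : ℕ) (F : A) (v : ℤ), F ∈ K v → (-1) ^ n * F ∈ K v := by
        intro n F v hF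
        rcases neg_one_pow_eq_or A n with h | h <;> rw [h]
        · simpa using hF
        · simpa using (K v).neg_mem hF
      apply hsign
      apply Submodule.sum_mem
      intro a ha
      rw [Finset.mem_filter, Finset.HasAntidiagonal.mem_antidiagonal] at ha
      rw [mul_assoc]
      apply hsign
      have h2 : 0 < a.2 := by omega
      have := hmul _ _ _ _ (ih a.1 ha.2) (hp a.2 h2)
      have hw : w * (a.1 : ℤ) + w * (a.2 : ℤ) = w * (j : ℤ) := by
        rw [← mul_add]; congr 1; exact_mod_cast ha.1
      rwa [hw] at this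

end Fermat.Agent.S23Lib.Alg
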