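import Mathlib
import Fermat.Agent.S23.Algebra

set_option autoImplicit false

/-!
# Core lemma for S23: characteristic polynomial over level one forms and Lagrange interpolation.
-/

open UpperHalfPlane ModularForm CongruenceSubgroup SlashInvariantForm
open scoped MatrixGroups Manifold ModularForm

namespace Fermat.Agent.S23Lib.Core

noncomputable section

variable {𝒢 : Subgroup (GL (Fin 2) ℝ)}

local notation "𝒬" => 𝒮ℒ ⧸ (𝒢.subgroupOf 𝒮ℒ)

theorem slash_apply_of_mem {g : GL (Fin 2) ℝ} (hg : g ∈ 𝒮ℒ) (k : ℤ) (F : ℍ → ℂ) (τ : ℍ) :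
    (F ∣[k] g) τ = F (g • τ) * denom g τ ^ (-k) := by
  obtain ⟨γ, rfl⟩ := hg
  exact ModularForm.SL_slash_apply F γ τ

theorem mul_slash_of_mem {g : GL (Fin 2) ℝ} (hg : g ∈ 𝒮ℒ) (k₁ k₂ : ℤ) (F G : ℍ → ℂ) :
    (F * G) ∣[k₁ + k₂] g = (F ∣[k₁] g) * (G ∣[k₂] g) := by
  obtain ⟨γ, rfl⟩ := hg
  exact ModularForm.mul_slash_SL2 k₁ k₂ γ F G

theorem pow_slash_of_mem {g : GL (Fin 2) ℝ} (hg : g ∈ 𝒮ℒ) (k : ℤ) (F : ℍ → ℂ) (j : ℕ) :
    (F ^ j) ∣[(j : ℤ) * k] g = (F ∣[k] g) ^ j := by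
  induction j with
  | zero =>
    obtain ⟨γ, rfl⟩ := hg
    simpa using! ModularForm.is_invariant_one γ
  | succ j ih =>
    rw [pow_succ, pow_succ, ← ih, ← mul_slash_of_mem hg]
    congr 1
    push_cast
    ring

section qf

variable {F₁ F₂ F₃ : Type*} [FunLike F₁ ℍ ℂ] [FunLike F₂ ℍ ℂ] [FunLike F₃ ℍ ℂ] {k₁ k₂ k₃ : ℤ}
  [SlashInvariantFormClass F₁ 𝒢 k₁] [SlashInvariantFormClass F₂ 𝒢 k₂]
  [SlashInvariantFormClass F₃ 𝒢 k₃]

theorem qf_mul (f₁ : F₁) (f₂ : F₂) (f₃ : F₃) (hk : k₃ = k₁ + k₂)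
    (h : (f₃ : ℍ → ℂ) = (f₁ : ℍ → ℂ) * (f₂ : ℍ → ℂ)) (q : 𝒬) :
    quotientFunc f₃ q = quotientFunc f₁ q * quotientFunc f₂ q := by
  induction q using Quotient.inductionOn with
  | h r =>
    subst hk
    simp only [quotientFunc_mk]
    rw [h, mul_slash_of_mem (inv_mem r.2)]

theorem qf_pow (f₁ : F₁) (f₃ : F₃) (j : ℕ) (hk : k₃ = j * k₁)
    (h : (f₃ : ℍ → ℂ) = (f₁ : ℍ → ℂ) ^ j) (q : 𝒬) :
    quotientFunc f₃ q = quotientFunc f₁ q ^ j := by
  induction q using Quotient.inductionOn with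
  | h r =>
    subst hk
    simp only [quotientFunc_mk]
    rw [h, pow_slash_of_mem (inv_mem r.2)]

theorem qf_one (f₁ : F₁) : quotientFunc f₁ (⟦1⟧ : 𝒬) = f₁ := by
  simp [quotientFunc_mk]

end qf

section closure

variable (K : ℤ → Submodule ℂ (ℍ → ℂ))
  (hmul : ∀ (w v : ℤ) (F G : ℍ → ℂ), F ∈ K w → G ∈ K v → F * G ∈ K (w + v))

include hmul

theorem pow_mem (h1 : (1 : ℍ → ℂ) ∈ K 0) {wt : ℤ} {t : ℍ → ℂ} (ht : t ∈ K wt) (a : ℕ) :
    t ^ a ∈ K (wt * a) := by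
  induction a with
  | zero => simpa using h1
  | succ a ih =>
    rw [pow_succ]
    have := hmul _ _ _ _ ih ht
    have hw : wt * (a : ℤ) + wt = wt * ((a + 1 : ℕ) : ℤ) := by push_cast; ring
    rwa [hw] at this

omit hmul in
theorem sign_mul_mem (n : ℕ) {F : ℍ → ℂ} {v : ℤ} (hF : F ∈ K v) : (-1) ^ n * F ∈ K v := by
  rcases neg_one_pow_eq_or (ℍ → ℂ) n with h | h <;> rw [h]
  · simpa using hF
  · simpa using (K v).neg_mem hF

theorem sum_mem (h1 : (1 : ℍ → ℂ) ∈ K 0) {wt c : ℤ} {t : ℍ → ℂ} (ht : t ∈ K wt) (μ : ℕ)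
    (e : ℕ → ℍ → ℂ) (he : ∀ j : ℕ, e j ∈ K (wt * j))
    (G : ℕ → ℍ → ℂ) (hG : ∀ b : ℕ, G b ∈ K (c + wt * b)) :
    ∑ j ∈ Finset.range μ, (-1) ^ j * e j *
      ∑ a ∈ Finset.range (μ - j), t ^ a * G (μ - j - 1 - a) ∈ K (wt * ((μ : ℤ) - 1) + c) := by
  apply Submodule.sum_mem
  intro j hj
  rw [Finset.mem_range] at hj
  rw [Finset.mul_sum]
  apply Submodule.sum_mem
  intro a ha
  rw [Finset.mem_range] at ha
  rw [mul_assoc]
  apply sign_mul_mem K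
  have h := hmul _ _ _ _ (he j) (hmul _ _ _ _ (pow_mem K hmul h1 ht a) (hG (μ - j - 1 - a)))
  have hw : wt * (j : ℤ) + (wt * (a : ℤ) + (c + wt * ((μ - j - 1 - a : ℕ) : ℤ)))
      = wt * ((μ : ℤ) - 1) + c := by
    have : ((μ - j - 1 - a : ℕ) : ℤ) = (μ : ℤ) - j - 1 - a := by omega
    rw [this]; ring
  rwa [hw] at h

end closure

section main

variable [𝒢.IsArithmetic]

omit [𝒢.IsArithmetic] in
theorem mdiff_qf {F : Type*} [FunLike F ℍ ℂ] {k : ℤ} [ModularFormClass F 𝒢 k] (f : F) (q : 𝒬) :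
    MDiff (quotientFunc f q) := by
  induction q using Quotient.inductionOn with
  | h r => exact (ModularForm.translate f r.val⁻¹).holo'

theorem core_fraction {k wt : ℤ} (t : ModularForm 𝒢 wt)
    (ht_ne : ∀ q : 𝒬, q ≠ ⟦1⟧ → quotientFunc t q ≠ t)
    (f : CuspForm 𝒢 k)
    (K : ℤ → Submodule ℂ (ℍ → ℂ))
    (hmul : ∀ (w v : ℤ) (F G : ℍ → ℂ), F ∈ K w → G ∈ K v → F * G ∈ K (w + v))
    (hone : ∀ (w : ℤ) (G : ModularForm 𝒮ℒ w), (G : ℍ → ℂ) ∈ K w)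
    (ht : (t : ℍ → ℂ) ∈ K wt) :
    ∃ (w : ℤ) (D : ℍ → ℂ), D ∈ K w ∧ D ≠ 0 ∧ D * f ∈ K (w + k) := by
  classical
  let _ := Fintype.ofFinite 𝒬
  set x : 𝒬 → ℍ → ℂ := fun q => quotientFunc t q with hx
  set y : 𝒬 → ℍ → ℂ := fun q => quotientFunc f q with hy
  set i₀ : 𝒬 := ⟦1⟧ with hi₀
  have hx0 : x i₀ = t := qf_one t
  have hy0 : y i₀ = f := qf_one f
  have h1 : (1 : ℍ → ℂ) ∈ K 0 := by simpa using hone 0 1
  have hps : ∀ j : ℕ, 0 < j → ∑ q, x q ^ j ∈ K (wt * j) := by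
    intro j _
    have h := hone _ (ModularForm.trace 𝒮ℒ (t.pow j))
    rw [ModularForm.coe_trace] at h
    have h2 : ∑ q : 𝒬, quotientFunc (t.pow j) q = ∑ q, x q ^ j :=
      Finset.sum_congr rfl fun q _ => qf_pow t (t.pow j) j rfl (coe_pow t j) q
    rw [mul_comm]
    rw [← h2]
    exact h
  have hes := Alg.es_mem K hmul h1 x wt hps
  refine ⟨wt * ((Fintype.card 𝒬 : ℤ) - 1), ∏ q ∈ Finset.univ.erase i₀, (x i₀ - x q), ?_, ?_, ?_⟩
  · rw [Alg.different_eq, hx0]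
    have := sum_mem K hmul h1 (c := 0) ht (Fintype.card 𝒬) (Alg.es x) hes (fun b => (t : ℍ → ℂ) ^ b)
      (fun b => by simpa using pow_mem K hmul h1 ht b)
    simpa using this
  · intro h0
    rw [UpperHalfPlane.prod_eq_zero_iff] at h0
    · obtain ⟨q, hq, hq0⟩ := h0
      rw [Finset.mem_erase] at hq
      apply ht_ne q hq.1
      rw [← hx0]
      exact (sub_eq_zero.mp hq0).symm
    · intro q _
      exact (mdiff_qf t i₀).sub (mdiff_qf t q)
  · rw [← hy0, Alg.interpolation, hx0]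
    apply sum_mem K hmul h1 ht (Fintype.card 𝒬) (Alg.es x) hes
      (fun b => ∑ q, y q * x q ^ b)
    intro b
    have h := hone _ (ModularForm.trace 𝒮ℒ (f.mulModularForm (t.pow b)))
    rw [ModularForm.coe_trace] at h
    have h2 : ∑ q : 𝒬, quotientFunc (f.mulModularForm (t.pow b)) q = ∑ q, y q * x q ^ b :=
      Finset.sum_congr rfl fun q _ => by
        rw [qf_mul f (t.pow b) (f.mulModularForm (t.pow b)) rfl
          (CuspForm.coe_mulModularForm f (t.pow b)) q, qf_pow t (t.pow b) b rfl (coe_pow t b) q]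
    rw [mul_comm wt, ← h2]
    exact h

/-- functions underlying level one modular forms of weight `w` -/
def K1 (w : ℤ) : Submodule ℂ (ℍ → ℂ) where
  carrier := {F | ∃ G : ModularForm 𝒮ℒ w, (G : ℍ → ℂ) = F}
  add_mem' := by
    rintro _ _ ⟨G, rfl⟩ ⟨G', rfl⟩
    exact ⟨G + G', rfl⟩
  zero_mem' := ⟨0, rfl⟩
  smul_mem' := by
    rintro c _ ⟨G, rfl⟩
    exact ⟨c • G, rfl⟩

theorem K1_mul (w v : ℤ) (F G : ℍ → ℂ) (hF : F ∈ K1 w) (hG : G ∈ K1 v) : F * G ∈ K1 (w + v) := by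
  obtain ⟨F', rfl⟩ := hF
  obtain ⟨G', rfl⟩ := hG
  exact ⟨F'.mul G', rfl⟩

/-- a level one modular form vanishing at infinity, as a cusp form (with a weight cast) -/
def mkCusp {w w' : ℤ} (hw : w = w') (G : ModularForm 𝒮ℒ w) (hz : IsZeroAtImInfty G) :
    CuspForm 𝒮ℒ w' :=
  CuspForm.mcast hw
    { G with
      zero_at_cusps' := fun {c} hc => by
        rw [Subgroup.IsArithmetic.isCusp_iff_isCusp_SL2Z] at hc
        rw [OnePoint.isZeroAt_iff_forall_SL2Z hc]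
        intro γ _
        rw [show ((G.toSlashInvariantForm.toFun) ∣[w] γ) = ⇑G from G.slash_action_eq' _ ⟨γ, rfl⟩]
        exact hz }

theorem coe_mkCusp {w w' : ℤ} (hw : w = w') (G : ModularForm 𝒮ℒ w) (hz : IsZeroAtImInfty G) :
    (mkCusp hw G hz : ℍ → ℂ) = G := rfl

theorem isZero_qf {k : ℤ} (f : CuspForm 𝒢 k) (q : 𝒬) : IsZeroAtImInfty (quotientFunc f q) := by
  induction q using Quotient.inductionOn with
  | h r =>
    obtain ⟨_, γ, rfl⟩ := r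
    have := CuspFormClass.zero_at_infty_slash f γ⁻¹
    rw [ModularForm.SL_slash, map_inv] at this
    exact this

theorem core_integral {k : ℤ} (f : CuspForm 𝒢 k) :
    ∃ (μ : ℕ) (_ : 0 < μ) (a : ∀ i : ℕ, CuspForm 𝒮ℒ (k * (i + 1))),
      ∀ z, f z ^ μ + ∑ i ∈ Finset.range μ, a i z * f z ^ (μ - 1 - i) = 0 := by
  classical
  let _ := Fintype.ofFinite 𝒬
  set y : 𝒬 → ℍ → ℂ := fun q => quotientFunc f q with hy
  set i₀ : 𝒬 := ⟦1⟧ with hi₀
  have hy0 : y i₀ = f := qf_one f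
  have hps : ∀ j : ℕ, 0 < j → ∑ q, y q ^ j ∈ K1 (k * j) := by
    intro j _
    let fM : ModularForm 𝒢 k :=
      { f with bdd_at_cusps' := fun hc g hg => (f.zero_at_cusps' hc g hg).boundedAtFilter }
    refine ⟨ModularForm.mcast (mul_comm _ _) (ModularForm.trace 𝒮ℒ (fM.pow j)), ?_⟩
    rw [ModularForm.coe_mcast, ModularForm.coe_trace]
    exact Finset.sum_congr rfl fun q _ => qf_pow f (fM.pow j) j rfl (coe_pow fM j) q
  have hes := Alg.es_mem K1 K1_mul ⟨1, rfl⟩ y k hps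
  have hzero : ∀ j : ℕ, 0 < j → IsZeroAtImInfty (Alg.es y j) := by
    intro j hj
    rw [Alg.es_eq_sum]
    unfold IsZeroAtImInfty Filter.ZeroAtFilter
    have : (0 : ℂ) = ∑ s ∈ (Finset.univ : Finset 𝒬).powersetCard j, (0 : ℂ) := by simp
    rw [this, Finset.sum_fn]
    apply tendsto_finsetSum
    intro s hs
    rw [Finset.mem_powersetCard] at hs
    obtain ⟨q, hq⟩ : s.Nonempty := by
      rw [← Finset.card_pos]; omega
    have h0 : (0 : ℂ) = ∏ q ∈ s, (0 : ℂ) := (Finset.prod_eq_zero hq rfl).symm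
    rw [h0, Finset.prod_fn]
    exact tendsto_finsetProd _ fun q _ => isZero_qf f q
  choose G hG using hes
  refine ⟨Fintype.card 𝒬, Fintype.card_pos_iff.mpr ⟨i₀⟩,
    fun i => mkCusp (by push_cast; ring) ((-1 : ℂ) ^ (i + 1) • G (i + 1)) ?_, ?_⟩
  · have := (hzero (i + 1) (Nat.succ_pos i)).smul ((-1 : ℂ) ^ (i + 1))
    rw [← hG] at this
    exact this
  · intro z
    have h := congrFun (Alg.charpoly_root' y i₀) z
    rw [hy0] at h
    simp only [Pi.add_apply, Pi.pow_apply, Finset.sum_apply, Pi.mul_apply, Pi.zero_apply] at h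
    rw [← h]
    congr 1
    apply Finset.sum_congr rfl
    intro i _
    congr 1
    show (-1 : ℂ) ^ (i + 1) * (G (i + 1)) z = _
    rw [hG]
    simp

end main

end

end Fermat.Agent.S23Lib.Core
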