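import Mathlib

set_option autoImplicit false

open UpperHalfPlane

namespace Fermat.Agent.S23Lib

/-- `F` has integral `q`-expansion. -/
def IsIntQ (F : ℍ → ℂ) : Prop :=
  ∃ s : PowerSeries ℤ, qExpansion 1 F = s.map (Int.castRingHom ℂ)

end Fermat.Agent.S23Lib
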