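import Mathlib

set_option autoImplicit false

open UpperHalfPlane Filter Topology
open scoped Manifold

namespace Fermat.Agent.S23Lib

namespace Division

theorem root_bound {μ : ℕ} (hμ : 0 < μ) (y : ℂ) (c : ℕ → ℂ)
    (h : y ^ μ + ∑ i ∈ Finset.range μ, c i * y ^ (μ - 1 - i) = 0) :
    ‖y‖ ≤ 1 + ∑ i ∈ Finset.range μ, ‖c i‖ := by
  by_cases hy : ‖y‖ ≤ 1
  · have : 0 ≤ ∑ i ∈ Finset.range μ, ‖c i‖ := Finset.sum_nonneg (fun _ _ => norm_nonneg _)
    linarith
  push Not at hy
  have h1 : ‖y‖ ^ μ ≤ (∑ i ∈ Finset.range μ, ‖c i‖) * ‖y‖ ^ (μ - 1) := by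
    have h0 : y ^ μ = - ∑ i ∈ Finset.range μ, c i * y ^ (μ - 1 - i) := by linear_combination h
    calc ‖y‖ ^ μ = ‖y ^ μ‖ := (norm_pow _ _).symm
      _ = ‖∑ i ∈ Finset.range μ, c i * y ^ (μ - 1 - i)‖ := by rw [h0, norm_neg]
      _ ≤ ∑ i ∈ Finset.range μ, ‖c i * y ^ (μ - 1 - i)‖ := norm_sum_le _ _
      _ ≤ ∑ i ∈ Finset.range μ, ‖c i‖ * ‖y‖ ^ (μ - 1) := by
          apply Finset.sum_le_sum
          intro i _
          rw [norm_mul, norm_pow]
          apply mul_le_mul_of_nonneg_left _ (norm_nonneg _)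
          exact pow_le_pow_right₀ hy.le (by omega)
      _ = _ := by rw [Finset.sum_mul]
  have h2 : ‖y‖ ^ μ = ‖y‖ * ‖y‖ ^ (μ - 1) := by
    rw [← pow_succ']; congr 1; omega
  rw [h2] at h1
  have hpos : 0 < ‖y‖ ^ (μ - 1) := pow_pos (by linarith) _
  have := le_of_mul_le_mul_right h1 hpos
  linarith

end Division

open Division in
theorem exists_holo_quotient {μ : ℕ} (hμ : 0 < μ) (D Q : ℍ → ℂ) (a : ℕ → ℍ → ℂ)
    (hD : MDiff D) (hQ : MDiff Q) (ha : ∀ i, MDiff (a i)) (hD0 : D ≠ 0)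
    (h : ∀ z, Q z ^ μ + ∑ i ∈ Finset.range μ, a i z * Q z ^ (μ - 1 - i) * D z ^ (i + 1) = 0) :
    ∃ g : ℍ → ℂ, MDiff g ∧ (∀ z, g z * D z = Q z) ∧
      ∀ z, g z ^ μ + ∑ i ∈ Finset.range μ, a i z * g z ^ (μ - 1 - i) = 0 := by
  set U : Set ℂ := {z : ℂ | 0 < z.im} with hU
  have hUo : IsOpen U := isOpen_upperHalfPlaneSet
  set D' : ℂ → ℂ := D ∘ ofComplex with hD'
  set Q' : ℂ → ℂ := Q ∘ ofComplex with hQ'
  set a' : ℕ → ℂ → ℂ := fun i => a i ∘ ofComplex with ha'
  have hDan : AnalyticOnNhd ℂ D' U := (UpperHalfPlane.mdifferentiable_iff.mp hD).analyticOnNhd hUo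
  have hQan : AnalyticOnNhd ℂ Q' U := (UpperHalfPlane.mdifferentiable_iff.mp hQ).analyticOnNhd hUo
  have haan : ∀ i, AnalyticOnNhd ℂ (a' i) U := fun i =>
    (UpperHalfPlane.mdifferentiable_iff.mp (ha i)).analyticOnNhd hUo
  -- the relation on `U`
  have hrel : ∀ z ∈ U, Q' z ^ μ + ∑ i ∈ Finset.range μ,
      a' i z * Q' z ^ (μ - 1 - i) * D' z ^ (i + 1) = 0 := fun z _ => h (ofComplex z)
  -- `D'` is eventually nonzero near every point of `U`
  have hDne : ∀ x ∈ U, ∀ᶠ z in 𝓝[≠] x, D' z ≠ 0 := by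
    intro x hx
    rcases (hDan x hx).eventually_eq_zero_or_eventually_ne_zero with h0 | h0
    · exfalso
      apply hD0
      have hpre : IsPreconnected U :=
        (Complex.isConnected_of_upperHalfPlane subset_rfl (by grind)).isPreconnected
      have := hDan.eqOn_zero_of_preconnected_of_eventuallyEq_zero hpre hx h0
      funext w
      have hw := this w.im_pos
      simpa [hD', ofComplex_apply] using hw
    · exact h0
  set q : ℂ → ℂ := fun z => Q' z / D' z with hq
  have hqmer : MeromorphicOn q U := fun x hx =>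
    (hQan x hx).meromorphicAt.div (hDan x hx).meromorphicAt
  -- the monic relation for `q` where `D' ≠ 0`
  have hqrel : ∀ z ∈ U, D' z ≠ 0 →
      q z ^ μ + ∑ i ∈ Finset.range μ, a' i z * q z ^ (μ - 1 - i) = 0 := by
    intro z hz hDz
    have h1 := hrel z hz
    have h2 : (q z ^ μ + ∑ i ∈ Finset.range μ, a' i z * q z ^ (μ - 1 - i)) * D' z ^ μ = 0 := by
      rw [← h1, add_mul, Finset.sum_mul]
      congr 1
      · rw [hq]; simp only; rw [div_pow, div_mul_cancel₀ _ (pow_ne_zero _ hDz)]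
      · apply Finset.sum_congr rfl
        intro i hi
        have hi' : i < μ := Finset.mem_range.mp hi
        have : D' z ^ μ = D' z ^ (μ - 1 - i) * D' z ^ (i + 1) := by
          rw [← pow_add]; congr 1; omega
        rw [hq]; simp only
        rw [this, div_pow]
        field_simp
    exact (mul_eq_zero.mp h2).resolve_right (pow_ne_zero _ hDz)
  -- order is nonnegative
  have hord : ∀ x ∈ U, 0 ≤ meromorphicOrderAt q x := by
    intro x hx
    by_contra hneg
    push Not at hneg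
    have htend := tendsto_cobounded_of_meromorphicOrderAt_neg hneg
    rw [← tendsto_norm_atTop_iff_cobounded] at htend
    have hbcont : ContinuousAt (fun z => 1 + ∑ i ∈ Finset.range μ, ‖a' i z‖) x := by
      apply ContinuousAt.add continuousAt_const
      apply tendsto_finsetSum
      intro i _
      exact ((haan i x hx).continuousAt.norm)
    have hb : Tendsto (fun z => 1 + ∑ i ∈ Finset.range μ, ‖a' i z‖) (𝓝[≠] x)
        (𝓝 (1 + ∑ i ∈ Finset.range μ, ‖a' i x‖)) := hbcont.tendsto.mono_left nhdsWithin_le_nhds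
    have hle : ∀ᶠ z in 𝓝[≠] x, ‖q z‖ ≤ 1 + ∑ i ∈ Finset.range μ, ‖a' i z‖ := by
      have hUmem : ∀ᶠ z in 𝓝[≠] x, z ∈ U := nhdsWithin_le_nhds (hUo.mem_nhds hx)
      filter_upwards [hDne x hx, hUmem] with z hz hzU
      exact root_bound hμ (q z) (fun i => a' i z) (hqrel z hzU hz)
    exact not_tendsto_atTop_of_tendsto_nhds hb (tendsto_atTop_mono' _ hle htend)
  set G : ℂ → ℂ := toMeromorphicNFOn q U with hG
  have hGan : AnalyticOnNhd ℂ G U := by
    intro x hx
    have hnf : MeromorphicNFAt G x := meromorphicNFOn_toMeromorphicNFOn q U hx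
    rw [← hnf.meromorphicOrderAt_nonneg_iff_analyticAt, hG,
      meromorphicOrderAt_toMeromorphicNFOn hqmer hx]
    exact hord x hx
  have hGq : ∀ x ∈ U, G =ᶠ[𝓝[≠] x] q := fun x hx => hqmer.toMeromorphicNFOn_eq_self_on_nhdsNE hx
  -- identities by continuity
  have hGD : ∀ x ∈ U, G x * D' x = Q' x := by
    intro x hx
    have hc1 : ContinuousAt (fun z => G z * D' z) x :=
      (hGan x hx).continuousAt.mul (hDan x hx).continuousAt
    have hc2 : ContinuousAt Q' x := (hQan x hx).continuousAt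
    have hev : (fun z => G z * D' z) =ᶠ[𝓝[≠] x] Q' := by
      filter_upwards [hGq x hx, hDne x hx] with z hz hDz
      rw [hz, hq]; simp only
      rw [div_mul_cancel₀ _ hDz]
    exact ((hc1.eventuallyEq_nhds_iff_eventuallyEq_nhdsNE hc2).mp hev).eq_of_nhds
  have hGrel : ∀ x ∈ U, G x ^ μ + ∑ i ∈ Finset.range μ, a' i x * G x ^ (μ - 1 - i) = 0 := by
    intro x hx
    have hc1 : ContinuousAt
        (fun z => G z ^ μ + ∑ i ∈ Finset.range μ, a' i z * G z ^ (μ - 1 - i)) x := by
      apply ContinuousAt.add ((hGan x hx).continuousAt.pow _)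
      apply tendsto_finsetSum
      intro i _
      exact ((haan i x hx).continuousAt.mul ((hGan x hx).continuousAt.pow _))
    have hc2 : ContinuousAt (fun _ : ℂ => (0 : ℂ)) x := continuousAt_const
    have hev : (fun z => G z ^ μ + ∑ i ∈ Finset.range μ, a' i z * G z ^ (μ - 1 - i))
        =ᶠ[𝓝[≠] x] (fun _ : ℂ => (0 : ℂ)) := by
      have hUmem : ∀ᶠ z in 𝓝[≠] x, z ∈ U := nhdsWithin_le_nhds (hUo.mem_nhds hx)
      filter_upwards [hGq x hx, hDne x hx, hUmem] with z hz hDz hzU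
      rw [hz]
      exact hqrel z hzU hDz
    exact ((hc1.eventuallyEq_nhds_iff_eventuallyEq_nhdsNE hc2).mp hev).eq_of_nhds
  refine ⟨fun τ => G τ, ?_, ?_, ?_⟩
  · rw [UpperHalfPlane.mdifferentiable_iff]
    have : DifferentiableOn ℂ G U := hGan.differentiableOn
    refine this.congr ?_
    intro z hz
    simp only [Function.comp_apply]
    rw [ofComplex_apply_of_im_pos hz]
  · intro z
    have := hGD z z.im_pos
    simpa [hD', hQ', ofComplex_apply] using this
  · intro z
    have := hGrel z z.im_pos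
    simpa [ha', ofComplex_apply] using this

end Fermat.Agent.S23Lib
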