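import Mathlib
import Fermat.Agent.S23.Defs

set_option autoImplicit false

open UpperHalfPlane ModularForm CongruenceSubgroup EisensteinSeries
open scoped MatrixGroups Manifold ModularForm

namespace Fermat.Agent.S23Lib

noncomputable section

namespace LevelOneAux

lemma isIntQ_iff_coeff (F : ℍ → ℂ) :
    IsIntQ F ↔ ∀ n, ∃ m : ℤ, (qExpansion 1 F).coeff n = m := by
  constructor
  · rintro ⟨s, hs⟩ n
    exact ⟨s.coeff n, by rw [hs]; simp⟩
  · intro h
    choose m hm using h
    exact ⟨PowerSeries.mk m, by ext n; simp [hm]⟩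

/-- The span of the level one forms with integral `q`-expansion. -/
def intSpan (k : ℤ) : Submodule ℂ (ModularForm 𝒮ℒ k) :=
  Submodule.span ℂ {h : ModularForm 𝒮ℒ k | IsIntQ h}

lemma mem_intSpan_of_smul {k : ℤ} (g : ModularForm 𝒮ℒ k) (c : ℂ) (hc : c ≠ 0)
    (h : IsIntQ (c • g : ModularForm 𝒮ℒ k)) : g ∈ intSpan k := by
  have : g = c⁻¹ • (c • g) := by rw [smul_smul, inv_mul_cancel₀ hc, one_smul]
  rw [this]
  exact Submodule.smul_mem _ _ (Submodule.subset_span h)

lemma qExp_smul {k : ℤ} (c : ℂ) (g : ModularForm 𝒮ℒ k) :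
    qExpansion 1 (c • g : ModularForm 𝒮ℒ k) = c • qExpansion 1 g := by
  rw [FunLike.coe_smul]
  exact ModularForm.qExpansion_smul one_pos one_mem_strictPeriods_SL c g

lemma E_mem {k : ℕ} (hk : 3 ≤ k) (hk2 : Even k) : E hk ∈ intSpan k := by
  set r : ℚ := -(2 * k / bernoulli k) with hr
  refine mem_intSpan_of_smul (E hk) (r.den : ℂ) (by exact_mod_cast r.den_nz) ?_
  rw [isIntQ_iff_coeff]
  intro n
  rw [qExp_smul, PowerSeries.coeff_smul, E_qExpansion_coeff hk hk2]
  split_ifs with h
  · exact ⟨r.den, by simp⟩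
  · refine ⟨r.num * (ArithmeticFunction.sigma (k - 1) n : ℕ), ?_⟩
    have h1 : (-(2 * k / bernoulli k : ℂ)) = (r : ℂ) := by
      rw [hr]; push_cast; ring
    have h2 : ((r.den : ℂ)) * (r : ℂ) = (r.num : ℂ) := by
      have := Rat.den_mul_eq_num r
      exact_mod_cast congrArg (fun x : ℚ => (x : ℂ)) this
    rw [h1, smul_eq_mul, ← mul_assoc, h2]
    push_cast
    ring

/-- The subring of power series with integer coefficients. -/
def intSeries : Subring (PowerSeries ℂ) := (PowerSeries.map (Int.castRingHom ℂ)).range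

lemma isIntQ_iff_mem (F : ℍ → ℂ) : IsIntQ F ↔ qExpansion 1 F ∈ intSeries := by
  constructor
  · rintro ⟨s, hs⟩
    exact ⟨s, hs.symm⟩
  · rintro ⟨s, hs⟩
    exact ⟨s, hs.symm⟩

lemma E₄_isIntQ : IsIntQ E₄ := by
  rw [isIntQ_iff_coeff]
  intro n
  rw [E_qExpansion_coeff _ ⟨2, rfl⟩]
  split_ifs with h
  · exact ⟨1, by simp⟩
  · refine ⟨240 * (ArithmeticFunction.sigma 3 n : ℕ), ?_⟩
    norm_num [show bernoulli 4 = -1 / 30 by decide +kernel]

lemma E₆_isIntQ : IsIntQ E₆ := by
  rw [isIntQ_iff_coeff]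
  intro n
  rw [E_qExpansion_coeff _ ⟨3, rfl⟩]
  split_ifs with h
  · exact ⟨1, by simp⟩
  · refine ⟨-504 * (ArithmeticFunction.sigma 5 n : ℕ), ?_⟩
    norm_num [show bernoulli 6 = 1 / 42 by decide +kernel]

lemma qExp_discriminant :
    (1728 : ℂ) • qExpansion 1 ModularForm.discriminant
      = qExpansion 1 E₄ ^ 3 - qExpansion 1 E₆ ^ 2 := by
  have h1 : ((1728 : ℂ) • (CuspForm.discriminant : ℍ → ℂ))
      = ((ModularForm.mcast (by decide) (E₄.pow 3) - ModularForm.mcast (by decide) (E₆.pow 2) :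
          ModularForm 𝒮ℒ 12) : ℍ → ℂ) := by
    ext z
    simp only [coe_mcast, coe_pow, sub_apply, Pi.pow_apply, Pi.smul_apply, smul_eq_mul,
      CuspForm.coe_discriminant]
    rw [discriminant_eq_E₄_cube_sub_E₆_sq z]
    ring
  have h2 := ModularForm.qExpansion_smul one_pos one_mem_strictPeriods_SL (1728 : ℂ)
      CuspForm.discriminant
  rw [CuspForm.coe_discriminant] at h2
  rw [← h2, ← CuspForm.coe_discriminant, h1]
  simp only [FunLike.coe_sub, coe_mcast,
    ModularForm.qExpansion_sub one_pos one_mem_strictPeriods_SL,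
    ModularForm.qExpansion_pow one_pos one_mem_strictPeriods_SL]

/-- Multiplication by the discriminant, as a linear map of spaces of modular forms. -/
def mulDisc (k : ℤ) : ModularForm 𝒮ℒ (k - 12) →ₗ[ℂ] ModularForm 𝒮ℒ k :=
  CuspForm.toModularFormₗ ∘ₗ (CuspForm.discriminantEquiv (k := k)).symm.toLinearMap

lemma mulDisc_coe (k : ℤ) (h : ModularForm 𝒮ℒ (k - 12)) :
    (mulDisc k h : ℍ → ℂ) = (CuspForm.discriminant : ℍ → ℂ) * (h : ℍ → ℂ) := by
  ext z
  rfl

lemma qExp_mulDisc (k : ℤ) (h : ModularForm 𝒮ℒ (k - 12)) :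
    qExpansion 1 (mulDisc k h) = qExpansion 1 ModularForm.discriminant * qExpansion 1 h := by
  rw [mulDisc_coe, ← CuspForm.coe_discriminant]
  exact ModularForm.qExpansion_mul_coe one_pos one_mem_strictPeriods_SL _ _

lemma mulDisc_mem_of_isIntQ (k : ℤ) (h : ModularForm 𝒮ℒ (k - 12)) (hh : IsIntQ h) :
    mulDisc k h ∈ intSpan k := by
  refine mem_intSpan_of_smul _ (1728 : ℂ) (by norm_num) ?_
  rw [isIntQ_iff_mem, qExp_smul, qExp_mulDisc, ← smul_mul_assoc, qExp_discriminant]
  exact mul_mem (sub_mem (pow_mem ((isIntQ_iff_mem _).1 E₄_isIntQ) _)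
    (pow_mem ((isIntQ_iff_mem _).1 E₆_isIntQ) _)) ((isIntQ_iff_mem _).1 hh)

lemma mulDisc_mem (k : ℤ) (h : ModularForm 𝒮ℒ (k - 12)) (hh : h ∈ intSpan (k - 12)) :
    mulDisc k h ∈ intSpan k := by
  have : intSpan (k - 12) ≤ (intSpan k).comap (mulDisc k) :=
    Submodule.span_le.2 fun x hx => mulDisc_mem_of_isIntQ k x hx
  exact this hh

lemma one_mem : (1 : ModularForm 𝒮ℒ 0) ∈ intSpan 0 := by
  refine Submodule.subset_span ?_
  refine ⟨1, ?_⟩
  rw [ModularForm.qExpansion_one]
  simp

lemma mem_intSpan_aux (n : ℕ) : ∀ (k : ℤ), k ≤ n → ∀ g : ModularForm 𝒮ℒ k, g ∈ intSpan k := by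
  induction n using Nat.strong_induction_on with
  | _ n ih =>
    intro k hkn g
    rcases lt_or_ge k 0 with hk | hk
    · have : g = 0 := rank_zero_iff_forall_zero.mp (levelOne_neg_weight_rank_zero hk) g
      rw [this]; exact zero_mem _
    rcases Int.even_or_odd k with hev | hodd
    swap
    · rw [levelOne_odd_weight_eq_zero hodd g]; exact zero_mem _
    lift k to ℕ using hk
    have hev' : Even k := by exact_mod_cast hev
    rcases Nat.lt_or_ge k 3 with hk3 | hk3
    · have : k = 0 ∨ k = 2 := by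
        rcases hev' with ⟨m, rfl⟩; omega
      rcases this with rfl | rfl
      · obtain ⟨c, hc⟩ := ModularFormClass.levelOne_weight_zero_const g
        have : g = c • (1 : ModularForm 𝒮ℒ 0) := by
          ext z
          simp [hc]
        rw [this]
        exact Submodule.smul_mem _ _ one_mem
      · have : g = 0 := rank_zero_iff_forall_zero.mp levelOne_weight_two_rank_zero g
        rw [this]; exact zero_mem _
    · -- main case
      set a0 : ℂ := (qExpansion 1 g).coeff 0 with ha0
      set g' : ModularForm 𝒮ℒ k := g - a0 • E hk3 with hg'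
      have h0 : (qExpansion 1 g').coeff 0 = 0 := by
        rw [hg', FunLike.coe_sub, ModularForm.qExpansion_sub one_pos one_mem_strictPeriods_SL,
          qExp_smul, map_sub, PowerSeries.coeff_smul, E_qExpansion_coeff_zero hk3 hev',
          smul_eq_mul, mul_one, sub_self]
      have h1 : g' = mulDisc k (CuspForm.discriminantEquiv (toCuspForm g' h0)) := by
        ext z
        rw [mulDisc_coe]
        simp
      have h2 : g' ∈ intSpan k := by
        rw [h1]
        apply mulDisc_mem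
        rcases Nat.lt_or_ge k 12 with hk12 | hk12
        · have : CuspForm.discriminantEquiv (toCuspForm g' h0) = 0 :=
            rank_zero_iff_forall_zero.mp (levelOne_neg_weight_rank_zero (by omega)) _
          rw [this]; exact zero_mem _
        · exact ih (k - 12) (by omega) _ (by omega) _
      have h3 : g = g' + a0 • E hk3 := by rw [hg']; abel
      rw [h3]
      exact add_mem h2 (Submodule.smul_mem _ _ (E_mem hk3 hev'))

end LevelOneAux

theorem levelOne_mem_span_int (k : ℤ) (g : ModularForm 𝒮ℒ k) :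
    g ∈ Submodule.span ℂ {h : ModularForm 𝒮ℒ k | IsIntQ h} :=
  LevelOneAux.mem_intSpan_aux k.toNat k (Int.self_le_toNat k) g

end

end Fermat.Agent.S23Lib
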