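import Mathlib

set_option autoImplicit false

/-!
# "Nice" functions on the upper half plane (holomorphic, 1-periodic, bounded at infinity)
and conjugation of `q`-expansions by a ring endomorphism of `ℂ`.
-/

open UpperHalfPlane ModularForm
open scoped MatrixGroups Manifold ModularForm

namespace Fermat.Agent.S23Lib

structure Nice (F : ℍ → ℂ) : Prop where
  per : Function.Periodic (F ∘ ofComplex) 1
  holo : MDiff F
  bdd : IsBoundedAtImInfty F

namespace Nice

variable {F G : ℍ → ℂ}

theorem analytic (hF : Nice F) : AnalyticAt ℂ (cuspFunction 1 F) 0 :=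
  analyticAt_cuspFunction_zero one_pos hF.per hF.holo hF.bdd

theorem add (hF : Nice F) (hG : Nice G) : Nice (F + G) where
  per := fun z => by
    have h1 := hF.per z
    have h2 := hG.per z
    simp only [Function.comp_apply, Pi.add_apply] at h1 h2 ⊢
    rw [h1, h2]
  holo := hF.holo.add hG.holo
  bdd := hF.bdd.add hG.bdd

theorem mul (hF : Nice F) (hG : Nice G) : Nice (F * G) where
  per := fun z => by
    have h1 := hF.per z
    have h2 := hG.per z
    simp only [Function.comp_apply, Pi.mul_apply] at h1 h2 ⊢
    rw [h1, h2]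
  holo := hF.holo.mul hG.holo
  bdd := hF.bdd.mul hG.bdd

theorem const (c : ℂ) : Nice (fun _ => c) where
  per := fun _ => rfl
  holo := mdifferentiable_const
  bdd := Filter.const_boundedAtFilter _ c

theorem one : Nice (1 : ℍ → ℂ) := const 1

theorem zero : Nice (0 : ℍ → ℂ) := const 0

theorem smul (c : ℂ) (hF : Nice F) : Nice (c • F) := by
  have := (const c).mul hF
  exact this

theorem neg (hF : Nice F) : Nice (-F) := by
  have := hF.smul (-1)
  simpa using this

theorem pow (hF : Nice F) (n : ℕ) : Nice (F ^ n) := by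
  induction n with
  | zero => simpa using one
  | succ n ih => rw [pow_succ]; exact ih.mul hF

theorem sum {ι : Type*} (s : Finset ι) (f : ι → ℍ → ℂ) (h : ∀ i ∈ s, Nice (f i)) :
    Nice (∑ i ∈ s, f i) := by
  classical
  induction s using Finset.induction_on with
  | empty => simpa using zero
  | insert i s hi ih =>
    rw [Finset.sum_insert hi]
    exact (h i (Finset.mem_insert_self i s)).add
      (ih fun j hj => h j (Finset.mem_insert_of_mem hj))

theorem eq_zero_iff (hF : Nice F) : qExpansion 1 F = 0 ↔ F = 0 :=
  qExpansion_eq_zero_iff one_pos hF.per hF.holo hF.bdd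

theorem of_modularForm {Γ : Subgroup (GL (Fin 2) ℝ)} (hΓ : (1 : ℝ) ∈ Γ.strictPeriods) {k : ℤ}
    {M : Type*} [FunLike M ℍ ℂ] [ModularFormClass M Γ k] (f : M) : Nice (f : ℍ → ℂ) where
  per := SlashInvariantFormClass.periodic_comp_ofComplex f hΓ
  holo := ModularFormClass.holo f
  bdd :=
    have : Fact (IsCusp OnePoint.infty Γ) := ⟨Γ.isCusp_of_mem_strictPeriods one_pos hΓ⟩
    ModularFormClass.bdd_at_infty f

end Nice

/-- `G` is a `σ`-conjugate of `F`. -/
structure Conj (σ : ℂ →+* ℂ) (F G : ℍ → ℂ) : Prop where
  left : Nice F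
  right : Nice G
  eq : qExpansion 1 G = (qExpansion 1 F).map σ

namespace Conj

variable {σ : ℂ →+* ℂ} {F G F' G' : ℍ → ℂ}

theorem add (h : Conj σ F G) (h' : Conj σ F' G') : Conj σ (F + F') (G + G') where
  left := h.left.add h'.left
  right := h.right.add h'.right
  eq := by
    rw [qExpansion_add h.right.analytic h'.right.analytic,
      qExpansion_add h.left.analytic h'.left.analytic, map_add, h.eq, h'.eq]

theorem mul (h : Conj σ F G) (h' : Conj σ F' G') : Conj σ (F * F') (G * G') where
  left := h.left.mul h'.left
  right := h.right.mul h'.right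
  eq := by
    rw [qExpansion_mul h.right.analytic h'.right.analytic,
      qExpansion_mul h.left.analytic h'.left.analytic, map_mul, h.eq, h'.eq]

theorem one : Conj σ 1 1 where
  left := Nice.one
  right := Nice.one
  eq := by rw [qExpansion_one, map_one]

theorem zero : Conj σ 0 0 where
  left := Nice.zero
  right := Nice.zero
  eq := by rw [qExpansion_zero, map_zero]

theorem pow (h : Conj σ F G) (n : ℕ) : Conj σ (F ^ n) (G ^ n) := by
  induction n with
  | zero => simpa using one
  | succ n ih => rw [pow_succ, pow_succ]; exact ih.mul h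

theorem sum {ι : Type*} (s : Finset ι) (f g : ι → ℍ → ℂ) (h : ∀ i ∈ s, Conj σ (f i) (g i)) :
    Conj σ (∑ i ∈ s, f i) (∑ i ∈ s, g i) := by
  classical
  induction s using Finset.induction_on with
  | empty => simpa using zero
  | insert i s hi ih =>
    rw [Finset.sum_insert hi, Finset.sum_insert hi]
    exact (h i (Finset.mem_insert_self i s)).add
      (ih fun j hj => h j (Finset.mem_insert_of_mem hj))

theorem eq_zero (h : Conj σ F G) (hF : F = 0) : G = 0 := by
  rw [← h.right.eq_zero_iff, h.eq, hF, qExpansion_zero, map_zero]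

theorem ne_zero (h : Conj σ F G) (hF : F ≠ 0) : G ≠ 0 := by
  intro hG
  apply hF
  rw [← h.left.eq_zero_iff]
  have h1 := h.eq
  rw [hG, qExpansion_zero] at h1
  ext n
  have h2 := congrArg (PowerSeries.coeff n) h1
  simp only [map_zero, PowerSeries.coeff_map] at h2
  simpa using h2.symm

end Conj

end Fermat.Agent.S23Lib
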