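import Mathlib
import Fermat.Prelude.Def_ModularForm_HeckeOperator
import Fermat.Prelude.Thm_CongruenceSubgroup_one_mem_strictPeriods_Gamma0
import Fermat.Agent.S23.Defs
import Fermat.Agent.Lib.Modular.LevelRaise

/-!
# S23 (T): the form `t(z) = E₄(Nz)` on `Γ₀(N)`
-/

set_option autoImplicit false

open UpperHalfPlane ModularForm CongruenceSubgroup
open scoped MatrixGroups Manifold ModularForm

namespace Fermat.Agent.S23Lib

noncomputable section

namespace TFormAux

open Filter Topology Fermat.Agent.LevelRaise EisensteinSeries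

local notation "𝕢" => Function.Periodic.qParam

lemma E4_slash (γ : SL(2, ℤ)) : (E₄ : ℍ → ℂ) ∣[(4 : ℤ)] γ = E₄ :=
  E₄.slash_action_eq' _ ⟨γ, rfl⟩

lemma tendsto_E4 : Tendsto (E₄ : ℍ → ℂ) atImInfty (𝓝 1) := by
  have han := ModularFormClass.analyticAt_cuspFunction_zero E₄ one_pos one_mem_strictPeriods_SL
  have h0 : cuspFunction 1 E₄ 0 = 1 := by
    have h2 := E_qExpansion_coeff_zero (k := 4) (by norm_num) ⟨2, rfl⟩
    rw [qExpansion_coeff] at h2
    simpa using h2
  have := han.continuousAt.tendsto.comp (qParam_tendsto_atImInfty one_pos)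
  rw [h0] at this
  exact this.congr
    (fun τ => SlashInvariantFormClass.eq_cuspFunction E₄ τ one_mem_strictPeriods_SL one_ne_zero)

/-- integer `q`-coefficients of `E₄`. -/
def e4coeff (m : ℕ) : ℤ := if m = 0 then 1 else 240 * (ArithmeticFunction.sigma 3 m : ℤ)

lemma E4_coeff (m : ℕ) : (qExpansion 1 E₄).coeff m = (e4coeff m : ℂ) := by
  rw [E_qExpansion_coeff _ ⟨2, rfl⟩, e4coeff]
  split_ifs with h
  · simp
  · norm_num [show bernoulli 4 = -1 / 30 by decide +kernel]

lemma E4_hasSum (τ : ℍ) : HasSum (fun m ↦ (e4coeff m : ℂ) • 𝕢 1 (τ : ℂ) ^ m) (E₄ τ) := by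
  have := ModularForm.hasSum_qExpansion (f := E₄) one_pos one_mem_strictPeriods_SL τ
  simpa [E4_coeff] using this

end TFormAux

open TFormAux Fermat.Agent.LevelRaise

/-- `t(z) = E₄(Nz)` as a modular form on `Γ₀(N)`. -/
def tForm (N : ℕ) [NeZero N] : ModularForm (Gamma0 N) 4 where
  toFun := raise N E₄
  slash_action_eq' := by
    rintro _ ⟨γ, hγ, rfl⟩
    exact raise_slash_of_mem 4 (NeZero.ne N) E4_slash hγ
  holo' := raise_mdiff (NeZero.ne N) E₄.holo'
  bdd_at_cusps' {c} hc := by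
    rw [Subgroup.IsArithmetic.isCusp_iff_isCusp_SL2Z] at hc
    rw [OnePoint.isBoundedAt_iff_forall_SL2Z hc]
    exact fun γ _ => raise_slash_bdd 4 (NeZero.ne N) E4_slash
      (ModularFormClass.bdd_at_infty E₄) γ

lemma coe_tForm (N : ℕ) [NeZero N] : (tForm N : ℍ → ℂ) = raise N E₄ := rfl

theorem tForm_isIntQ (N : ℕ) [NeZero N] : IsIntQ (tForm N) := by
  refine ⟨PowerSeries.mk fun m => if N ∣ m then e4coeff (m / N) else 0, ?_⟩
  ext m
  have h := ModularFormClass.qExpansion_coeff_unique (f := tForm N) one_pos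
    (CongruenceSubgroup.one_mem_strictPeriods_Gamma0 N)
    (c := fun m => if N ∣ m then (e4coeff (m / N) : ℂ) else 0)
    (fun τ => raise_hasSum (NeZero.ne N) E4_hasSum τ) m
  rw [← h]
  simp only [PowerSeries.coeff_map, PowerSeries.coeff_mk]
  split_ifs <;> simp

theorem tForm_slash_ne (N : ℕ) [NeZero N] (γ : SL(2, ℤ)) (hγ : γ ∉ Gamma0 N) :
    (tForm N : ℍ → ℂ) ∣[(4 : ℤ)] γ ≠ tForm N := fun h =>
  hγ (mem_Gamma0_of_raise_slash_eq (by norm_num) (NeZero.ne N) E4_slash tendsto_E4 one_ne_zero h)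

end

end Fermat.Agent.S23Lib
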