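import Mathlib
import Fermat.Prelude.Thm_CongruenceSubgroup_one_mem_strictPeriods_Gamma0
import Fermat.Agent.S23.Defs
import Fermat.Agent.S23.Nice
import Fermat.Agent.S23.Core
import Fermat.Agent.S23.LevelOne
import Fermat.Agent.S23.TForm
import Fermat.Agent.S23.Division

set_option autoImplicit false

/-!
# (A): the `σ`-conjugate of a cusp form on `Γ₀(N)` is again a cusp form on `Γ₀(N)`.
-/

open UpperHalfPlane ModularForm CongruenceSubgroup SlashInvariantForm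
open scoped MatrixGroups Manifold ModularForm

namespace Fermat.Agent.S23Lib

noncomputable section

theorem map_intSeries (σ : ℂ →+* ℂ) (s : PowerSeries ℤ) :
    (s.map (Int.castRingHom ℂ)).map σ = s.map (Int.castRingHom ℂ) := by
  ext n
  simp

/-- conjugates of level one forms -/
theorem exists_conj_levelOne (σ : ℂ →+* ℂ) (w : ℤ) (G : ModularForm 𝒮ℒ w) :
    ∃ G' : ModularForm 𝒮ℒ w, qExpansion 1 G' = (qExpansion 1 G).map σ := by
  have hΓ := one_mem_strictPeriods_SL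
  induction levelOne_mem_span_int w G using Submodule.span_induction with
  | mem h hh =>
    obtain ⟨s, hs⟩ := hh
    exact ⟨h, by rw [hs, map_intSeries]⟩
  | zero => exact ⟨0, by simp [qExpansion_zero]⟩
  | add x y _ _ hx hy =>
    obtain ⟨x', hx'⟩ := hx
    obtain ⟨y', hy'⟩ := hy
    refine ⟨x' + y', ?_⟩
    rw [FunLike.coe_add, FunLike.coe_add, ModularForm.qExpansion_add one_pos hΓ,
      ModularForm.qExpansion_add one_pos hΓ, map_add, hx', hy']
  | smul c x _ hx =>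
    obtain ⟨x', hx'⟩ := hx
    refine ⟨σ c • x', ?_⟩
    rw [FunLike.coe_smul, FunLike.coe_smul, ModularForm.qExpansion_smul one_pos hΓ,
      ModularForm.qExpansion_smul one_pos hΓ, hx']
    ext n
    simp

theorem norm_pow_le_of_root {μ : ℕ} (x : ℂ) (a : ℕ → ℂ)
    (h : x ^ μ + ∑ i ∈ Finset.range μ, a i * x ^ (μ - 1 - i) = 0)
    (hs : ∑ i ∈ Finset.range μ, ‖a i‖ < 1) : ‖x‖ ^ μ ≤ ∑ i ∈ Finset.range μ, ‖a i‖ := by
  have h1 : ‖x‖ ^ μ ≤ ∑ i ∈ Finset.range μ, ‖a i‖ * ‖x‖ ^ (μ - 1 - i) := by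
    have : x ^ μ = - ∑ i ∈ Finset.range μ, a i * x ^ (μ - 1 - i) := eq_neg_of_add_eq_zero_left h
    rw [← norm_pow, this, norm_neg]
    refine (norm_sum_le _ _).trans (le_of_eq ?_)
    simp [norm_pow]
  rcases le_or_gt ‖x‖ 1 with hx | hx
  · refine h1.trans (Finset.sum_le_sum fun i _ => ?_)
    exact mul_le_of_le_one_right (norm_nonneg _) (pow_le_one₀ (norm_nonneg _) hx)
  · exfalso
    rcases Nat.eq_zero_or_pos μ with rfl | hμ
    · simp at h
    have h2 : ∑ i ∈ Finset.range μ, ‖a i‖ * ‖x‖ ^ (μ - 1 - i)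
        ≤ (∑ i ∈ Finset.range μ, ‖a i‖) * ‖x‖ ^ (μ - 1) := by
      rw [Finset.sum_mul]
      refine Finset.sum_le_sum fun i _ => ?_
      exact mul_le_mul_of_nonneg_left (pow_le_pow_right₀ hx.le (Nat.sub_le _ _)) (norm_nonneg _)
    have hpos : 0 < ‖x‖ ^ (μ - 1) := pow_pos (by linarith) _
    have h3 : ‖x‖ ^ μ = ‖x‖ * ‖x‖ ^ (μ - 1) := by
      rw [← pow_succ']; congr 1; omega
    nlinarith

theorem isZeroAtImInfty_of_root {μ : ℕ} (G : ℍ → ℂ) (a : ℕ → ℍ → ℂ)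
    (ha : ∀ i, IsZeroAtImInfty (a i))
    (h : ∀ z, G z ^ μ + ∑ i ∈ Finset.range μ, a i z * G z ^ (μ - 1 - i) = 0) :
    IsZeroAtImInfty G := by
  have hs : Filter.Tendsto (fun z => ∑ i ∈ Finset.range μ, ‖a i z‖) atImInfty (nhds 0) := by
    have : (0 : ℝ) = ∑ i ∈ Finset.range μ, (0 : ℝ) := by simp
    rw [this]
    exact tendsto_finsetSum _ fun i _ => tendsto_zero_iff_norm_tendsto_zero.mp (ha i)
  unfold IsZeroAtImInfty Filter.ZeroAtFilter
  rw [NormedAddGroup.tendsto_nhds_zero]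
  intro ε hε
  have hε' : 0 < min 1 (ε ^ μ) := lt_min one_pos (pow_pos hε _)
  filter_upwards [hs.eventually (gt_mem_nhds hε')] with z hz
  have h1 := norm_pow_le_of_root (G z) (fun i => a i z) (h z) (hz.trans_le (min_le_left _ _))
  exact lt_of_pow_lt_pow_left₀ μ hε.le (h1.trans_lt (hz.trans_le (min_le_right _ _)))

section levelN

variable (N : ℕ) [NeZero N]

local notation "Γ" => ((Gamma0 N : Subgroup SL(2, ℤ)) : Subgroup (GL (Fin 2) ℝ))

omit [NeZero N] in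
theorem Gamma0_le_SL : Γ ≤ 𝒮ℒ := Subgroup.map_le_range _ _

omit [NeZero N] in
theorem one_mem_sp : (1 : ℝ) ∈ (Γ).strictPeriods :=
  CongruenceSubgroup.one_mem_strictPeriods_Gamma0 N

/-- restriction of a level one form to `Γ₀(N)` -/
def restr {w : ℤ} (G : ModularForm 𝒮ℒ w) : ModularForm Γ w where
  toFun := G
  slash_action_eq' γ hγ := G.slash_action_eq' γ (Gamma0_le_SL N hγ)
  holo' := G.holo'
  bdd_at_cusps' hc := G.bdd_at_cusps' (hc.mono (Gamma0_le_SL N))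

theorem coe_restr {w : ℤ} (G : ModularForm 𝒮ℒ w) : (restr N G : ℍ → ℂ) = G := rfl

/-- functions underlying forms of weight `w` on `Γ₀(N)` admitting a `σ`-conjugate of the same
kind. -/
def KS (σ : ℂ →+* ℂ) (w : ℤ) : Submodule ℂ (ℍ → ℂ) where
  carrier := {F | ∃ G G' : ModularForm Γ w, (G : ℍ → ℂ) = F ∧
    qExpansion 1 G' = (qExpansion 1 G).map σ}
  add_mem' := by
    rintro _ _ ⟨G, G', rfl, h⟩ ⟨H, H', rfl, h'⟩
    refine ⟨G + H, G' + H', rfl, ?_⟩
    rw [FunLike.coe_add, FunLike.coe_add, ModularForm.qExpansion_add one_pos (one_mem_sp N),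
      ModularForm.qExpansion_add one_pos (one_mem_sp N), map_add, h, h']
  zero_mem' := ⟨0, 0, rfl, by simp [qExpansion_zero]⟩
  smul_mem' := by
    rintro c _ ⟨G, G', rfl, h⟩
    refine ⟨c • G, σ c • G', rfl, ?_⟩
    rw [FunLike.coe_smul, FunLike.coe_smul, ModularForm.qExpansion_smul one_pos (one_mem_sp N),
      ModularForm.qExpansion_smul one_pos (one_mem_sp N), h]
    ext n
    simp

theorem KS_mul (σ : ℂ →+* ℂ) (w v : ℤ) (F G : ℍ → ℂ) (hF : F ∈ KS N σ w) (hG : G ∈ KS N σ v) :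
    F * G ∈ KS N σ (w + v) := by
  obtain ⟨F₁, F₂, rfl, h⟩ := hF
  obtain ⟨G₁, G₂, rfl, h'⟩ := hG
  refine ⟨F₁.mul G₁, F₂.mul G₂, rfl, ?_⟩
  rw [ModularForm.qExpansion_mul one_pos (one_mem_sp N),
    ModularForm.qExpansion_mul one_pos (one_mem_sp N), map_mul, h, h']

theorem KS_one (σ : ℂ →+* ℂ) (w : ℤ) (G : ModularForm 𝒮ℒ w) : (G : ℍ → ℂ) ∈ KS N σ w := by
  obtain ⟨G', hG'⟩ := exists_conj_levelOne σ w G
  exact ⟨restr N G, restr N G', rfl, hG'⟩

theorem KS_t (σ : ℂ →+* ℂ) : (tForm N : ℍ → ℂ) ∈ KS N σ 4 := by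
  obtain ⟨s, hs⟩ := tForm_isIntQ N
  exact ⟨tForm N, tForm N, rfl, by rw [hs, map_intSeries]⟩

theorem tForm_qf_ne (q : 𝒮ℒ ⧸ ((Γ).subgroupOf 𝒮ℒ)) (hq : q ≠ ⟦1⟧) :
    quotientFunc (tForm N) q ≠ tForm N := by
  induction q using Quotient.inductionOn with
  | h r =>
    obtain ⟨_, γ, rfl⟩ := r
    rw [quotientFunc_mk]
    have hγ : γ⁻¹ ∉ Gamma0 N := by
      intro hmem
      apply hq
      rw [Quotient.eq_iff_equiv]
      change QuotientGroup.leftRel _ _ _
      rw [QuotientGroup.leftRel_apply, Subgroup.mem_subgroupOf]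
      simp only [mul_one, Subgroup.coe_inv]
      exact ⟨γ⁻¹, hmem, map_inv _ _⟩
    have := tForm_slash_ne N γ⁻¹ hγ
    rw [ModularForm.SL_slash, map_inv] at this
    exact this

/-- conjugates of level one cusp forms -/
theorem exists_conj_levelOne_cusp (σ : ℂ →+* ℂ) (w : ℤ) (G : CuspForm 𝒮ℒ w) :
    ∃ G' : CuspForm 𝒮ℒ w, qExpansion 1 G' = (qExpansion 1 G).map σ := by
  let GM : ModularForm 𝒮ℒ w :=
    { G with bdd_at_cusps' := fun hc g hg => (G.zero_at_cusps' hc g hg).boundedAtFilter }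
  obtain ⟨G', hG'⟩ := exists_conj_levelOne σ w GM
  have h0 : (qExpansion 1 G').coeff 0 = 0 := by
    rw [hG', PowerSeries.coeff_map]
    have : (qExpansion 1 GM).coeff 0 = 0 :=
      CuspFormClass.qExpansion_coeff_zero G one_pos one_mem_strictPeriods_SL
    rw [this, map_zero]
  exact ⟨ModularForm.toCuspForm G' h0, hG'⟩

theorem exists_conj (k : ℤ) (σ : ℂ →+* ℂ) (f : CuspForm (Gamma0 N) k) :
    ∃ g : CuspForm (Gamma0 N) k, qExpansion 1 g = (qExpansion 1 f).map σ := by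
  have hsp := one_mem_sp N
  obtain ⟨w, D, hD, hD0, hQ⟩ := Core.core_fraction (tForm N) (tForm_qf_ne N) f (KS N σ)
    (KS_mul N σ) (KS_one N σ) (KS_t N σ)
  obtain ⟨μ, hμ, a, ha⟩ := Core.core_integral f
  obtain ⟨GD, GD', rfl, hGD⟩ := hD
  obtain ⟨GQ, GQ', hGQ, hGQ'⟩ := hQ
  choose a' ha' using fun i => exists_conj_levelOne_cusp σ _ (a i)
  have cD : Conj σ GD GD' := ⟨.of_modularForm hsp GD, .of_modularForm hsp GD', hGD⟩
  have cQ : Conj σ GQ GQ' := ⟨.of_modularForm hsp GQ, .of_modularForm hsp GQ', hGQ'⟩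
  have ca : ∀ i, Conj σ (a i) (a' i) := fun i =>
    ⟨.of_modularForm one_mem_strictPeriods_SL (a i), .of_modularForm one_mem_strictPeriods_SL (a' i),
      ha' i⟩
  -- the homogenised relation
  have hrel : (GQ : ℍ → ℂ) ^ μ + ∑ i ∈ Finset.range μ,
      (a i : ℍ → ℂ) * (GQ : ℍ → ℂ) ^ (μ - 1 - i) * (GD : ℍ → ℂ) ^ (i + 1) = 0 := by
    ext z
    simp only [Pi.add_apply, Pi.pow_apply, Finset.sum_apply, Pi.mul_apply, Pi.zero_apply]
    have hz : GQ z = GD z * f z := congrFun hGQ z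
    have h1 : ∀ i ∈ Finset.range μ, a i z * GQ z ^ (μ - 1 - i) * GD z ^ (i + 1)
        = GD z ^ μ * (a i z * f z ^ (μ - 1 - i)) := by
      intro i hi
      rw [Finset.mem_range] at hi
      have : GD z ^ μ = GD z ^ (μ - 1 - i) * GD z ^ (i + 1) := by
        rw [← pow_add]; congr 1; omega
      rw [hz, mul_pow, this]; ring
    rw [Finset.sum_congr rfl h1, ← Finset.mul_sum, hz, mul_pow, ← mul_add, ha z, mul_zero]
  have hrel' : (GQ' : ℍ → ℂ) ^ μ + ∑ i ∈ Finset.range μ,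
      (a' i : ℍ → ℂ) * (GQ' : ℍ → ℂ) ^ (μ - 1 - i) * (GD' : ℍ → ℂ) ^ (i + 1) = 0 :=
    Conj.eq_zero ((cQ.pow μ).add (Conj.sum _ _ _ fun i _ =>
      ((ca i).mul (cQ.pow _)).mul (cD.pow _))) hrel
  have hD0' : (GD' : ℍ → ℂ) ≠ 0 := cD.ne_zero hD0
  obtain ⟨g, hg, hgD, hgint⟩ := exists_holo_quotient hμ GD' GQ' (fun i => a' i) GD'.holo' GQ'.holo'
    (fun i => (a' i).holo') hD0' (fun z => by
      have := congrFun hrel' z
      simpa only [Pi.add_apply, Pi.pow_apply, Finset.sum_apply, Pi.mul_apply, Pi.zero_apply]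
        using this)
  have hgD' : g * (GD' : ℍ → ℂ) = GQ' := funext hgD
  -- slash invariance
  have hslash : ∀ γ ∈ Γ, g ∣[k] γ = g := by
    intro γ hγ
    have hγ' : γ ∈ 𝒮ℒ := Gamma0_le_SL N hγ
    have h1 : (g ∣[k] γ) * (GD' : ℍ → ℂ) = g * (GD' : ℍ → ℂ) := by
      have e1 : (GD' : ℍ → ℂ) ∣[w] γ = GD' := GD'.slash_action_eq' γ hγ
      have e2 : (GQ' : ℍ → ℂ) ∣[w + k] γ = GQ' := GQ'.slash_action_eq' γ hγ
      calc (g ∣[k] γ) * (GD' : ℍ → ℂ) = (g ∣[k] γ) * ((GD' : ℍ → ℂ) ∣[w] γ) := by rw [e1]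
        _ = (g * (GD' : ℍ → ℂ)) ∣[k + w] γ := (Core.mul_slash_of_mem hγ' k w g GD').symm
        _ = g * (GD' : ℍ → ℂ) := by rw [hgD', add_comm k w, e2]
    have h2 : (g ∣[k] γ - g) * (GD' : ℍ → ℂ) = 0 := by rw [sub_mul, h1, sub_self]
    rcases (UpperHalfPlane.mul_eq_zero_iff ((hg.slash k γ).sub hg) GD'.holo').mp h2 with h3 | h3
    · exact sub_eq_zero.mp h3
    · exact absurd h3 hD0'
  -- vanishing at cusps
  have hcusp : ∀ γ : SL(2, ℤ), IsZeroAtImInfty (g ∣[k] γ) := by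
    intro γ
    apply isZeroAtImInfty_of_root (μ := μ) _ (fun i => a' i)
      (fun i => CuspFormClass.zero_at_infty (a' i))
    intro z
    have h1 := hgint (γ • z)
    have hden : denom γ z ≠ 0 := denom_ne_zero γ z
    have e1 : ∀ i, a' i z = a' i (γ • z) * denom γ z ^ (-(k * ((i : ℤ) + 1))) := by
      intro i
      have : ((a' i : ℍ → ℂ) ∣[k * ((i : ℤ) + 1)] γ) = a' i := (a' i).slash_action_eq' _ ⟨γ, rfl⟩
      rw [← ModularForm.SL_slash_apply, this]
    rw [ModularForm.SL_slash_apply]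
    have h2 : ∀ i ∈ Finset.range μ,
        a' i z * (g (γ • z) * denom γ z ^ (-k)) ^ (μ - 1 - i)
          = (denom γ z ^ (-k)) ^ μ * (a' i (γ • z) * g (γ • z) ^ (μ - 1 - i)) := by
      intro i hi
      rw [Finset.mem_range] at hi
      have e2 : (denom γ z ^ (-k)) ^ μ
          = (denom γ z ^ (-k)) ^ (μ - 1 - i) * (denom γ z ^ (-k)) ^ (i + 1) := by
        rw [← pow_add]; congr 1; omega
      have e3 : denom γ z ^ (-(k * ((i : ℤ) + 1))) = (denom γ z ^ (-k)) ^ (i + 1) := by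
        rw [← zpow_natCast, ← zpow_mul]; congr 1; push_cast; ring
      rw [e1 i, e2, e3, mul_pow]; ring
    rw [Finset.sum_congr rfl h2, ← Finset.mul_sum, mul_pow, mul_comm (g (γ • z) ^ μ), ← mul_add,
      h1, mul_zero]
  let gC : CuspForm (Gamma0 N) k :=
    { toFun := g
      slash_action_eq' := hslash
      holo' := hg
      zero_at_cusps' := fun {c} hc => by
        rw [Subgroup.IsArithmetic.isCusp_iff_isCusp_SL2Z] at hc
        rw [OnePoint.isZeroAt_iff_forall_SL2Z hc]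
        exact fun γ _ => hcusp γ }
  refine ⟨gC, ?_⟩
  have e1 : qExpansion 1 gC * qExpansion 1 GD' = qExpansion 1 GQ' := by
    rw [← ModularForm.qExpansion_mul_coe one_pos hsp gC GD']
    exact congrArg _ hgD'
  have e2 : qExpansion 1 GD * qExpansion 1 f = qExpansion 1 GQ := by
    rw [← ModularForm.qExpansion_mul_coe one_pos hsp GD f, hGQ]
  have e3 : qExpansion 1 GD' ≠ 0 := by
    rw [Ne, cD.right.eq_zero_iff]; exact hD0'
  apply mul_right_cancel₀ e3
  rw [e1, hGQ', ← e2, map_mul, hGD, mul_comm]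

end levelN

end

end Fermat.Agent.S23Lib
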