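import Mathlib
import Fermat.Prelude.Def_CuspForm_IntegralStructure
import Fermat.Prelude.Def_CuspForm_HeckeAlgebra
import Fermat.Prelude.Thm_ModularFormClass_qCoeff_heckeT
import Fermat.Prelude.Thm_ModularFormClass_qCoeff_heckeU
import Fermat.Agent.S22

set_option autoImplicit false

open UpperHalfPlane ModularForm CongruenceSubgroup ModularFormClass
open scoped MatrixGroups Manifold ModularForm

namespace Fermat.Agent.S23Lib

namespace BVH

variable {N : ℕ} {k : ℤ}

theorem hΓ (N : ℕ) : (1 : ℝ) ∈ (Gamma0 N : Subgroup (GL (Fin 2) ℝ)).strictPeriods := by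
  simp [CongruenceSubgroup.strictPeriods_Gamma0]

theorem qCoeff_add (f g : CuspForm (Gamma0 N) k) (n : ℕ) :
    qCoeff ⇑(f + g) n = qCoeff ⇑f n + qCoeff ⇑g n := by
  simp only [qCoeff, CuspForm.coe_add]
  rw [ModularForm.qExpansion_add one_pos (hΓ N) f g, map_add]

theorem qCoeff_smul (c : ℂ) (f : CuspForm (Gamma0 N) k) (n : ℕ) :
    qCoeff ⇑(c • f) n = c * qCoeff ⇑f n := by
  simp only [qCoeff, CuspForm.IsGLPos.coe_smul]
  rw [ModularForm.qExpansion_smul one_pos (hΓ N) c f]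
  simp

theorem qCoeff_zsmul (c : ℤ) (f : CuspForm (Gamma0 N) k) (n : ℕ) :
    qCoeff ⇑(c • f) n = c * qCoeff ⇑f n := by
  rw [← qCoeff_smul]
  congr 2
  rw [Int.cast_smul_eq_zsmul]

theorem qCoeff_zero_index (f : CuspForm (Gamma0 N) k) : qCoeff ⇑f 0 = 0 :=
  CuspFormClass.qExpansion_coeff_zero f one_pos (hΓ N)

theorem qCoeff_T {p : ℕ} (hp : p.Prime) (hpN : ¬ p ∣ N) (f : CuspForm (Gamma0 N) k) (n : ℕ) :
    qCoeff ⇑(CuspForm.heckeTLin k hp hpN f) n = coeffHeckeT k p (qCoeff ⇑f) n := by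
  rw [CuspForm.coe_heckeTLin_apply, ModularFormClass.qCoeff_heckeT f (hΓ N) hp.ne_zero n]

theorem qCoeff_U [NeZero N] {p : ℕ} (hp : p.Prime) (hpN : p ∣ N) (f : CuspForm (Gamma0 N) k)
    (n : ℕ) :
    qCoeff ⇑(CuspForm.heckeULin k hpN f) n = coeffHeckeU p (qCoeff ⇑f) n := by
  rw [CuspForm.coe_heckeULin_apply, ModularFormClass.qCoeff_heckeU f (hΓ N) hp.ne_zero n]

theorem natCast_zpow_eq (hk : 1 ≤ k) (p : ℕ) : ((p : ℂ) ^ (k - 1)) = ((p ^ (k - 1).toNat : ℕ) : ℂ) := by
  have : k - 1 = ((k - 1).toNat : ℤ) := (Int.toNat_of_nonneg (by omega)).symm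
  conv_lhs => rw [this]
  rw [zpow_natCast]
  push_cast
  rfl

/-- Forms all of whose coefficients lie in an additive subgroup `B` are stable under the
Hecke algebra. -/
theorem coeff_mem_of_mem_heckeAlgebra [NeZero N] (hk : 1 ≤ k) (B : AddSubgroup ℂ) {S : Set ℕ}
    {t : Module.End ℂ (CuspForm (Gamma0 N) k)} (ht : t ∈ CuspForm.heckeAlgebra N k S)
    {f : CuspForm (Gamma0 N) k} (hf : ∀ n, qCoeff ⇑f n ∈ B) : ∀ n, qCoeff ⇑(t f) n ∈ B := by
  revert f
  refine Algebra.adjoin_induction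
    (p := fun (t : Module.End ℂ (CuspForm (Gamma0 N) k)) _ =>
      ∀ {f : CuspForm (Gamma0 N) k}, (∀ n, qCoeff ⇑f n ∈ B) →
      ∀ n, qCoeff ⇑(t f) n ∈ B) ?_ ?_ ?_ ?_ ht
  · rintro x (⟨ℓ, hℓ, hℓN, -, rfl⟩ | ⟨q, hqN, hq, -, rfl⟩) f hf n
    · rw [qCoeff_T, coeffHeckeT]
      refine B.add_mem (hf _) ?_
      split_ifs
      · rw [natCast_zpow_eq hk, ← nsmul_eq_mul]
        exact B.nsmul_mem (hf _) _
      · exact B.zero_mem
    · rw [qCoeff_U hq, coeffHeckeU]
      exact hf _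
  · intro r f hf n
    rw [Algebra.algebraMap_eq_smul_one, LinearMap.smul_apply, Module.End.one_apply, qCoeff_zsmul,
      ← zsmul_eq_mul]
    exact B.zsmul_mem (hf _) _
  · intro x y _ _ hx hy f hf n
    rw [LinearMap.add_apply, qCoeff_add]
    exact B.add_mem (hx hf n) (hy hf n)
  · intro x y _ _ hx hy f hf
    rw [Module.End.mul_apply]
    exact hx (hy hf)

end BVH

open BVH in
theorem exists_int_smul_mem_intLattice (N : ℕ) [NeZero N] (k : ℤ) (hk : 1 ≤ k)
    (f : CuspForm (Gamma0 N) k) (hf : ∀ n, ∃ r : ℚ, qCoeff ⇑f n = (r : ℂ)) :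
    ∃ c : ℤ, c ≠ 0 ∧ (c : ℂ) • f ∈ CuspForm.intLattice N k := by
  classical
  haveI : Module.Finite ℤ (CuspForm.heckeAlgebra N k ∅) := Fermat.Agent.S22.result N k ∅
  -- the linear map `t ↦ a₁(t f)`
  let φ : CuspForm.heckeAlgebra N k ∅ →ₗ[ℤ] ℂ :=
    { toFun := fun t => qCoeff ⇑((t : Module.End ℂ (CuspForm (Gamma0 N) k)) f) 1
      map_add' := fun s t => by
        show qCoeff ⇑(((s : Module.End ℂ (CuspForm (Gamma0 N) k)) + t) f) 1 = _
        rw [LinearMap.add_apply, qCoeff_add]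
      map_smul' := fun c t => by
        show qCoeff ⇑((c • (t : Module.End ℂ (CuspForm (Gamma0 N) k))) f) 1 = _
        rw [LinearMap.smul_apply, qCoeff_zsmul]
        simp }
  set A : Submodule ℤ ℂ := LinearMap.range φ with hA
  have hAfg : A.FG := by
    rw [hA, LinearMap.range_eq_map]
    exact (Module.Finite.fg_top).map φ
  -- every element of `A` is rational
  let Bq : AddSubgroup ℂ := (algebraMap ℚ ℂ).toAddMonoidHom.range
  have hArat : ∀ x ∈ A, ∃ r : ℚ, x = (r : ℂ) := by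
    rintro x ⟨t, rfl⟩
    have := coeff_mem_of_mem_heckeAlgebra hk Bq t.2 (f := f) (fun n => by
      obtain ⟨r, hr⟩ := hf n
      exact ⟨r, by rw [hr]; rfl⟩) 1
    obtain ⟨r, hr⟩ := this
    exact ⟨r, hr.symm⟩
  -- common denominator
  obtain ⟨D, hD0, hD⟩ : ∃ D : ℤ, D ≠ 0 ∧ ∀ x ∈ A, ∃ m : ℤ, (D : ℂ) * x = m := by
    obtain ⟨s, hs⟩ := hAfg
    have hsA : ∀ x ∈ s, x ∈ A := fun x hx => hs ▸ Submodule.subset_span hx
    choose! r hr using hArat
    have hDz0 : (∏ x ∈ s, ((r x).den : ℤ)) ≠ 0 :=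
      Finset.prod_ne_zero_iff.mpr fun x _ => by exact_mod_cast (r x).den_nz
    have hdvd : ∀ y ∈ s, ((r y).den : ℤ) ∣ ∏ x ∈ s, ((r x).den : ℤ) := fun y hy =>
      Finset.dvd_prod_of_mem (fun x => ((r x).den : ℤ)) hy
    generalize (∏ x ∈ s, ((r x).den : ℤ)) = Dz at hDz0 hdvd
    refine ⟨Dz, hDz0, ?_⟩
    intro x hx
    rw [← hs] at hx
    induction hx using Submodule.span_induction with
    | mem y hy =>
      have hy' : y ∈ s := hy
      obtain ⟨e, he⟩ := hdvd y hy'
      have hyq := hr y (hsA y hy')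
      generalize r y = q at he hyq
      refine ⟨e * q.num, ?_⟩
      have hden : (q.den : ℂ) ≠ 0 := by exact_mod_cast q.den_nz
      have hq : ((q : ℚ) : ℂ) = (q.num : ℂ) / (q.den : ℂ) := by
        conv_lhs => rw [← Rat.num_div_den q]
        push_cast
        rfl
      rw [he, hyq, hq]
      push_cast
      field_simp
    | zero => exact ⟨0, by simp⟩
    | add y z _ _ hy hz =>
      obtain ⟨m, hm⟩ := hy
      obtain ⟨m', hm'⟩ := hz
      exact ⟨m + m', by rw [mul_add, hm, hm']; push_cast; rfl⟩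
    | smul c y _ hy =>
      obtain ⟨m, hm⟩ := hy
      exact ⟨c * m, by rw [zsmul_eq_mul, Int.cast_mul, ← hm]; ring⟩
  -- all coefficients of all `t f` lie in `A`
  have key : ∀ n : ℕ, ∀ t : CuspForm.heckeAlgebra N k ∅,
      qCoeff ⇑((t : Module.End ℂ (CuspForm (Gamma0 N) k)) f) n ∈ A := by
    intro n
    induction n using Nat.strong_induction_on with
    | _ n ih =>
      intro t
      rcases Nat.lt_or_ge n 2 with hn | hn
      · interval_cases n
        · rw [qCoeff_zero_index]; exact A.zero_mem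
        · exact ⟨t, rfl⟩
      · obtain ⟨p, hp, m, rfl⟩ : ∃ p : ℕ, p.Prime ∧ ∃ m, n = m * p := by
          obtain ⟨p, hp, hpn⟩ := Nat.exists_prime_and_dvd (show n ≠ 1 by omega)
          obtain ⟨m, hm⟩ := hpn
          exact ⟨p, hp, m, by rw [hm, mul_comm]⟩
        have hm0 : 0 < m := by
          rcases Nat.eq_zero_or_pos m with h | h
          · subst h; omega
          · exact h
        have hmlt : m < m * p := by
          have := hp.two_le
          nlinarith
        by_cases hpN : p ∣ N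
        · have h1 := ih m hmlt (CuspForm.heckeAlgebra.U hp hpN (Set.notMem_empty p) * t)
          have h2 : ((CuspForm.heckeAlgebra.U hp hpN (Set.notMem_empty p) * t :
              CuspForm.heckeAlgebra N k ∅) : Module.End ℂ (CuspForm (Gamma0 N) k)) f
              = CuspForm.heckeULin k hpN ((t : Module.End ℂ (CuspForm (Gamma0 N) k)) f) := rfl
          rw [h2, qCoeff_U hp, coeffHeckeU] at h1
          exact h1
        · have h1 := ih m hmlt (CuspForm.heckeAlgebra.T hp hpN (Set.notMem_empty p) * t)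
          have h2 : ((CuspForm.heckeAlgebra.T hp hpN (Set.notMem_empty p) * t :
              CuspForm.heckeAlgebra N k ∅) : Module.End ℂ (CuspForm (Gamma0 N) k)) f
              = CuspForm.heckeTLin k hp hpN ((t : Module.End ℂ (CuspForm (Gamma0 N) k)) f) := rfl
          rw [h2, qCoeff_T, coeffHeckeT] at h1
          split_ifs at h1 with hdvd
          · have hlt : m / p < m * p := lt_of_le_of_lt (Nat.div_le_self _ _) hmlt
            have h3 := ih (m / p) hlt t
            have h4 : (p : ℂ) ^ (k - 1) *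
                qCoeff ⇑((t : Module.End ℂ (CuspForm (Gamma0 N) k)) f) (m / p) ∈ A := by
              rw [natCast_zpow_eq hk, ← nsmul_eq_mul]
              exact nsmul_mem h3 _
            have := A.sub_mem h1 h4
            simpa using this
          · simpa using h1
  refine ⟨D, hD0, ?_⟩
  apply Submodule.subset_span
  intro n
  have h1 := key n 1
  have h2 : ((1 : CuspForm.heckeAlgebra N k ∅) : Module.End ℂ (CuspForm (Gamma0 N) k)) f = f := rfl
  rw [h2] at h1
  obtain ⟨m, hm⟩ := hD _ h1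
  exact ⟨m, by rw [qCoeff_smul, hm]⟩

end Fermat.Agent.S23Lib
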