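import Mathlib
import Fermat.Prelude.Def_CuspForm_IntegralStructure
import Fermat.Prelude.Thm_ModularForm_sturm_bound_Gamma0
import Fermat.Agent.S23.Descent
import Fermat.Agent.S23.Conj
import Fermat.Agent.S23.BoundedViaHecke

set_option autoImplicit false

open UpperHalfPlane ModularForm CongruenceSubgroup
open scoped MatrixGroups Manifold ModularForm

namespace Fermat.Agent.S23Lib

noncomputable section

variable (N : ℕ) [NeZero N] (k : ℤ)

/-- the first `n` `q`-coefficients, as a linear map -/
def coeffMap (n : ℕ) : CuspForm (Gamma0 N) k →ₗ[ℂ] (Fin n → ℂ) where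
  toFun f := fun i => (qExpansion 1 f).coeff i
  map_add' f g := by
    ext i
    rw [FunLike.coe_add, ModularForm.qExpansion_add one_pos (one_mem_sp N)]
    simp
  map_smul' c f := by
    ext i
    rw [FunLike.coe_smul, ModularForm.qExpansion_smul one_pos (one_mem_sp N)]
    simp

theorem eq_zero_of_coeff (f : CuspForm (Gamma0 N) k)
    (h : ∀ n : ℕ, n ≤ (k * (Gamma0 N).index).toNat / 12 → (qExpansion 1 f).coeff n = 0) :
    f = 0 := by
  let F : ModularForm (Gamma0 N) k :=
    { f with bdd_at_cusps' := fun hc g hg => (f.zero_at_cusps' hc g hg).boundedAtFilter }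
  have hF : F = 0 := ModularForm.sturm_bound_Gamma0 N F h
  ext z
  exact congrArg (fun G : ModularForm (Gamma0 N) k => G z) hF

theorem coeffMap_injective :
    Function.Injective (coeffMap N k ((k * (Gamma0 N).index).toNat / 12 + 1)) := by
  rw [injective_iff_map_eq_zero]
  intro f hf
  apply eq_zero_of_coeff
  intro n hn
  exact congrFun hf ⟨n, Nat.lt_succ_of_le hn⟩

theorem hasIntegralStructure : CuspForm.HasIntegralStructure N k := by
  unfold CuspForm.HasIntegralStructure
  rcases lt_or_ge k 1 with hk | hk
  · -- the space is zero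
    rw [eq_top_iff]
    intro f _
    have : f = 0 := by
      apply eq_zero_of_coeff
      intro n hn
      have h0 : (k * ((Gamma0 N).index : ℤ)).toNat = 0 := by
        apply Int.toNat_of_nonpos
        exact mul_nonpos_of_nonpos_of_nonneg (by omega) (by positivity)
      rw [h0] at hn
      obtain rfl : n = 0 := by omega
      exact CuspFormClass.qExpansion_coeff_zero f one_pos (one_mem_sp N)
    rw [this]
    exact Submodule.zero_mem _
  · set n := (k * (Gamma0 N).index).toNat / 12 + 1 with hn
    have hinj := coeffMap_injective N k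
    have hconj : ∀ σ : ℂ →+* ℂ, ∀ v : CuspForm (Gamma0 N) k, ∃ w : CuspForm (Gamma0 N) k,
        ∀ i, coeffMap N k n w i = σ (coeffMap N k n v i) := by
      intro σ v
      obtain ⟨w, hw⟩ := exists_conj N k σ v
      refine ⟨w, fun i => ?_⟩
      show (qExpansion 1 w).coeff i = σ ((qExpansion 1 v).coeff i)
      rw [hw, PowerSeries.coeff_map]
    have hspan := span_rat_eq_top (coeffMap N k n) hinj hconj
    rw [eq_top_iff, ← hspan, Submodule.span_le]
    intro v hv
    -- all coefficients of `v` are rational
    have hrat : ∀ m, ∃ r : ℚ, ModularFormClass.qCoeff v m = r := by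
      intro m
      obtain ⟨r, hr⟩ := exists_rat_of_forall_ringHom_fixed (ModularFormClass.qCoeff v m) (by
        intro σ
        obtain ⟨w, hw⟩ := exists_conj N k σ v
        have hwv : w = v := by
          apply hinj
          ext i
          show (qExpansion 1 w).coeff i = (qExpansion 1 v).coeff i
          rw [hw, PowerSeries.coeff_map]
          obtain ⟨r, hr⟩ := hv i
          have hr' : (qExpansion 1 v).coeff i = (r : ℂ) := hr
          rw [hr', map_ratCast]
        rw [hwv] at hw
        have := congrArg (PowerSeries.coeff m) hw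
        rw [PowerSeries.coeff_map] at this
        exact this.symm)
      exact ⟨r, hr.symm⟩
    obtain ⟨c, hc0, hc⟩ := exists_int_smul_mem_intLattice N k hk v hrat
    have hc0' : (c : ℂ) ≠ 0 := by exact_mod_cast hc0
    have : v = (c : ℂ)⁻¹ • ((c : ℂ) • v) := by rw [smul_smul, inv_mul_cancel₀ hc0', one_smul]
    rw [this]
    exact Submodule.smul_mem _ _ (Submodule.subset_span hc)

end

end Fermat.Agent.S23Lib
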